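import Mathlib.FieldTheory.Relrank
import Fermat.Prelude.Def_AlgebraicCurve_Correspondence

/-!
# G-RED package HR-RED: `finrankAlong` of a map between intermediate fields (helper51)

Generic conversion (pure field theory): if `φ : A →ₐ[κ] B` between two intermediate fields of
`L / κ` is the restriction of `f : L →ₐ[κ] L`, then
`finrankAlong κ φ = (A.map f).relfinrank B`.
This file contains no `sorry`.
-/

set_option autoImplicit false
set_option linter.style.haveILetI false

noncomputable section

namespace Fermat.Agent.RED.H51

open IntermediateField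

/-- If `φ : A →ₐ[κ] B` is the restriction of `f : L →ₐ[κ] L`, then `f(A) ≤ B`. -/
theorem map_le_of_restrict {κ L : Type*} [Field κ] [Field L] [Algebra κ L]
    (A B : IntermediateField κ L) (f : L →ₐ[κ] L) (φ : ↥A →ₐ[κ] ↥B)
    (hφ : ∀ x : ↥A, ((φ x : ↥B) : L) = f (x : L)) : A.map f ≤ B := by
  intro y hy
  rcases (IntermediateField.mem_map A).1 hy with ⟨x, hx, rfl⟩
  have := hφ ⟨x, hx⟩
  simp only at this
  rw [← this]
  exact (φ ⟨x, hx⟩).2

/-- **Generic conversion**: the degree of a map between intermediate fields which is the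
restriction of an endomorphism `f` of the ambient field is a relative degree. -/
theorem finrankAlong_eq_relfinrank_map {κ L : Type*} [Field κ] [Field L] [Algebra κ L]
    (A B : IntermediateField κ L) (f : L →ₐ[κ] L) (φ : ↥A →ₐ[κ] ↥B)
    (hφ : ∀ x : ↥A, ((φ x : ↥B) : L) = f (x : L)) :
    AlgebraicCurve.finrankAlong κ φ = (A.map f).relfinrank B := by
  have hle : A.map f ≤ B := map_le_of_restrict A B f φ hφ
  rw [IntermediateField.relfinrank_eq_finrank_of_le hle]
  unfold AlgebraicCurve.finrankAlong
  letI := AlgebraicCurve.algebraAlong φ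
  let i : ↥A ≃+* ↥(A.map f) := (IntermediateField.equivMap A f).toRingEquiv
  let j : ↥B ≃+* ↥(IntermediateField.extendScalars hle) := RingEquiv.refl _
  refine Algebra.finrank_eq_of_equiv_equiv i j ?_
  ext x
  change ((algebraMap ↥(A.map f) ↥(IntermediateField.extendScalars hle)
    (IntermediateField.equivMap A f x) : ↥(IntermediateField.extendScalars hle)) : L)
      = ((φ x : ↥B) : L)
  rw [hφ]
  rfl

end Fermat.Agent.RED.H51
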