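import Fermat.Agent.RED.HR.H51_DegTower
import Fermat.Agent.S43.Old.H35_Tower
import Fermat.Agent.RED.HR.H51_FinrankAlong

/-!
# G-RED package HR-RED, leaf DEG-INST (helper69): the degree hypothesis of `H78.hr_abs`

`A` over `ℓ`, `ℓ ∤ N`, `s ≠ ℓ` a prime (`s ∣ N` allowed).  The degeneracy maps
`β = heckeBetaBar ℚ̄ N s : F_N · ℚ̄ → F_{Ns} · ℚ̄` and `β~ = H35.betaT A N s : F~_N → F~_{Ns}`
(substitution `t ↦ t ^ s`) have the same degree:

* `finrankAlong_beta_eq : finrankAlong ℚ̄ β = finrankAlong k β~`.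

Proof: both are relative degrees of `κ(j(q^d) : d ∣ N)(q ↦ q^s)` in `κ(j(q^d) : d ∣ N s)`
(`H51.finrankAlong_eq_relfinrank_map`, `laurentBaseChange_full_eq`, `stmt_GA`), which agree by
helper51's `stmt_DegBeta`.
-/

set_option autoImplicit false
set_option linter.style.haveILetI false
set_option linter.unusedSectionVars false
set_option synthInstance.maxHeartbeats 400000
set_option maxHeartbeats 1000000

noncomputable section

open AlgebraicCurve ModularCurve Fermat.Agent.S28.H73 Fermat.Agent.RED.H73 Fermat.Agent.RED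
open Fermat.Agent.S43.Old.H35

namespace Fermat.Agent.RED.H69D

/-- The degree of `β` over `ℚ̄` as a relative degree of the fields `ℚ̄(j(q^d))`. -/
theorem finrankAlong_beta_bar (N s : ℕ) [NeZero N] [NeZero s] :
    finrankAlong (AlgebraicClosure ℚ) (heckeBetaBar (AlgebraicClosure ℚ) N s)
      = ((modularFunctionFieldFullC (AlgebraicClosure ℚ) N).map
          (qExpandAlgHomC (AlgebraicClosure ℚ) s)).relfinrank
        (modularFunctionFieldFullC (AlgebraicClosure ℚ) (N * s)) := by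
  rw [H51.finrankAlong_eq_relfinrank_map (modularFunctionFieldBar N)
    (modularFunctionFieldBar (N * s)) (qExpandAlgHomC (AlgebraicClosure ℚ) s)
    (heckeBetaBar (AlgebraicClosure ℚ) N s) (fun x => coe_heckeBetaBar N s x)]
  have e1 : modularFunctionFieldBar N = modularFunctionFieldFullC (AlgebraicClosure ℚ) N :=
    laurentBaseChange_full_eq N
  have e2 : modularFunctionFieldBar (N * s)
      = modularFunctionFieldFullC (AlgebraicClosure ℚ) (N * s) :=
    laurentBaseChange_full_eq (N * s)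
  rw [e1, e2]

/-- The degree of `β~` over `k` as a relative degree of the fields `k(j~(q^d))`. -/
theorem finrankAlong_betaT (N ℓ s : ℕ) [NeZero N] [NeZero s] (hℓ : ℓ.Prime) (hs : s.Prime)
    (hsℓ : s ≠ ℓ) (hℓN : ¬ ℓ ∣ N) (A : ValuationSubring (AlgebraicClosure ℚ))
    (hA : A.LiesOverPrime ℓ) :
    finrankAlong (kV A) (betaT A N s)
      = ((modularFunctionFieldFullC (kV A) N).map (qExpandAlgHomC (kV A) s)).relfinrank
        (modularFunctionFieldFullC (kV A) (N * s)) := by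
  haveI : NeZero (N * s) := ⟨Nat.mul_ne_zero (NeZero.ne N) (NeZero.ne s)⟩
  have hℓs : ¬ ℓ ∣ s := fun h => hsℓ ((Nat.prime_dvd_prime_iff_eq hℓ hs).mp h).symm
  have hℓNs : ¬ ℓ ∣ N * s := fun h => (hℓ.dvd_mul.mp h).elim hℓN hℓs
  rw [H51.finrankAlong_eq_relfinrank_map (Ft A N) (Ft A (N * s)) (qExpandAlgHomC (kV A) s)
    (betaT A N s) (fun x => coe_betaT A N s x)]
  have e1 : Ft A N = modularFunctionFieldFullC (kV A) N := stmt_GA N ℓ hℓ hℓN A hA
  have e2 : Ft A (N * s) = modularFunctionFieldFullC (kV A) (N * s) :=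
    stmt_GA (N * s) ℓ hℓ hℓNs A hA
  rw [e1, e2]

/-- **DEG-INST**: `β` and `β~` have the same degree. -/
theorem finrankAlong_beta_eq (N ℓ s : ℕ) [NeZero N] [NeZero s] (hℓ : ℓ.Prime) (hs : s.Prime)
    (hsℓ : s ≠ ℓ) (hℓN : ¬ ℓ ∣ N) (A : ValuationSubring (AlgebraicClosure ℚ))
    (hA : A.LiesOverPrime ℓ) :
    finrankAlong (AlgebraicClosure ℚ) (heckeBetaBar (AlgebraicClosure ℚ) N s)
      = finrankAlong (kV A) (betaT A N s) := by
  rw [finrankAlong_beta_bar, finrankAlong_betaT N ℓ s hℓ hs hsℓ hℓN A hA]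
  exact (H51.stmt_DegBeta N ℓ s hℓ hs hsℓ hℓN A hA).symm

end Fermat.Agent.RED.H69D
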