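import Fermat.Agent.RED.HR.H78_CorrAbs

/-!
# G-RED package HR-RED, MAIN (helper78): the abstract theorem

`F, F'` function fields over `K`, `Ft, Ft'` over `k`, `α β : F → F'`, `αt βt : Ft → Ft'`,
`V` a valuation ring of `F` with reduction `red : V → Ft`, `r` a map of places with the
conservation law `r_* (div u) = div (red u)` on units of `V` and the moving lemma.  If the norm
along `α` commutes with the reduction (`red N_α (β u) = N_αt (βt (red u))` for units `u`) and
`[F' : β F] = [Ft' : βt Ft]`, then

  `r_* (α_* β^* D) = αt_* βt^* (r_* D)`   for ALL divisors `D`.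

Proof: `H52.eq_of_pos_of_move` (positivity, degrees, locality, moving lemma).
This file contains no `sorry`.
-/

set_option autoImplicit false
set_option linter.style.haveILetI false

noncomputable section

open AlgebraicCurve

namespace Fermat.Agent.RED.H78

theorem mapDomain_nonneg'' {X Y : Type*} (r : X → Y) (D : X →₀ ℤ) (hD : ∀ x, 0 ≤ D x) (y : Y) :
    0 ≤ Finsupp.mapDomain r D y := by
  classical
  rw [Finsupp.mapDomain, Finsupp.sum, Finsupp.finsetSum_apply]
  refine Finset.sum_nonneg fun x _ => ?_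
  rw [Finsupp.single_apply]
  split_ifs
  · exact hD x
  · exact le_rfl

section Abs

variable {K k F F' Ft Ft' : Type*} [Field K] [Field k] [Field F] [Field F'] [Field Ft]
  [Field Ft'] [Algebra K F] [Algebra K F'] [Algebra k Ft] [Algebra k Ft']
  [HasPrincipalDivisors K F'] [HasPrincipalDivisors k Ft']

/-- **HR, abstract**: the reduction map commutes with the correspondences. -/
theorem hr_abs (α β : F →ₐ[K] F') (hα : α.toRingHom.IsIntegral) (hβ : β.toRingHom.IsIntegral)
    (αt βt : Ft →ₐ[k] Ft') (hαt : αt.toRingHom.IsIntegral) (hβt : βt.toRingHom.IsIntegral)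
    (V : ValuationSubring F) (red : ↥V →+* Ft) (r : Place K F → Place k Ft)
    (hPD : HasPrincipalDivisors K F)
    (hdegK : ∀ v : Place K F, v.deg = 1) (hdegk : ∀ v : Place k Ft, v.deg = 1)
    (hFIβ : FundamentalIdentityAlong K β hβ) (hFIβt : FundamentalIdentityAlong k βt hβt)
    (hfinα : FiniteAlong K α) (hNα : NormFormulaAlong K α hfinα)
    (hfinαt : FiniteAlong k αt) (hNαt : NormFormulaAlong k αt hfinαt)
    (hdeg : finrankAlong K β = finrankAlong k βt)
    (hunit : ∀ a : ↥V, red a ≠ 0 → IsUnit a)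
    (hr : ∀ f : ↥V, IsUnit f → ∀ D : Divisor K F, (∀ P, D P = P.ord (f : F)) →
      ∀ Q : Place k Ft, Finsupp.mapDomain r D Q = Q.ord (red f))
    (hmove : ∀ (P : Place K F) (S : Finset (Place k Ft)),
      ∃ (n : ℕ) (f : ↥V), 0 < n ∧ IsUnit f ∧ P.ord (f : F) = -(n : ℤ) ∧
        ∀ P' : Place K F, P' ≠ P →
          0 ≤ P'.ord (f : F) ∧ (0 < P'.ord (f : F) → r P' ∉ S ∧ r P' ≠ r P))
    (hnorm : ∀ u : ↥V, IsUnit u →
      ∃ hN : (letI := algebraAlong α; Algebra.norm F (β (u : F))) ∈ V,
        red ⟨_, hN⟩ = (letI := algebraAlong αt; Algebra.norm Ft (βt (red u))))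
    (D : Divisor K F) :
    Finsupp.mapDomain r (Divisor.correspondence β α hβ hα D)
      = Divisor.correspondence βt αt hβt hαt (Finsupp.mapDomain r D) := by
  classical
  set Φ : Divisor K F →+ Divisor k Ft :=
    (Finsupp.mapDomain.addMonoidHom r).comp (Divisor.correspondence β α hβ hα) with hΦdef
  set Ψ : Divisor K F →+ Divisor k Ft :=
    (Divisor.correspondence βt αt hβt hαt).comp (Finsupp.mapDomain.addMonoidHom r) with hΨdef
  have hΦapp : ∀ E, Φ E = Finsupp.mapDomain r (Divisor.correspondence β α hβ hα E) :=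
    fun E => rfl
  have hΨapp : ∀ E, Ψ E = Divisor.correspondence βt αt hβt hαt (Finsupp.mapDomain r E) :=
    fun E => rfl
  have hΨs : ∀ P : Place K F, Ψ (Finsupp.single P 1)
      = Divisor.correspondence βt αt hβt hαt (Finsupp.single (r P) 1) := by
    intro P
    rw [hΨapp, Finsupp.mapDomain_single]
  have key : Φ = Ψ := by
    refine H52.eq_of_pos_of_move r H52.massHom (fun q => H52.massHom_single_one_pos q) Φ Ψ
      ?_ ?_ ?_ ?_
    · intro P Q
      rw [hΦapp]
      exact mapDomain_nonneg'' r _ (fun P' => corr_single_nonneg β α hβ hα P P') Q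
    · intro P
      rw [hΦapp, H52.massHom_mapDomain, corr_mass_single β α hβ hα hdegK hFIβ, hΨs,
        corr_mass_single βt αt hβt hαt hdegk hFIβt, hdeg]
    · intro P
      obtain ⟨S, hS⟩ := corr_loc βt αt hβt hαt (r P)
      refine ⟨S, fun P' hP' _ q hq => ?_⟩
      rw [hΨs] at hq ⊢
      exact hS (r P') hP' q hq
    · intro P S
      obtain ⟨n, f, hn, hu, hfP, hf⟩ := hmove P S
      have hf0 : (f : F) ≠ 0 := by
        intro h0
        have : f = 0 := Subtype.ext h0
        rw [this] at hu
        exact not_isUnit_zero hu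
      obtain ⟨E, hE, -⟩ := hPD.exists_divisor (f : F) hf0
      refine ⟨n, E, hn, by rw [hE, hfP], fun P' hP' => ?_, ?_⟩
      · rw [hE]
        exact hf P' hP'
      · -- `Φ (div f) = Ψ (div f)`
        obtain ⟨hN, hred⟩ := hnorm f hu
        have hredf : red f ≠ 0 := (hu.map red).ne_zero
        have hβt0 : βt (red f) ≠ 0 := fun h0 =>
          hredf (βt.toRingHom.injective (by simpa using h0))
        have hnorm0 : (letI := algebraAlong αt; Algebra.norm Ft (βt (red f))) ≠ 0 := by
          letI := algebraAlong αt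
          haveI : Module.Finite Ft Ft' := hfinαt
          exact Algebra.norm_ne_zero_iff.mpr hβt0
        have hnuU : IsUnit (⟨_, hN⟩ : ↥V) := hunit _ (by rw [hred]; exact hnorm0)
        have h1 : ∀ v : Place K F, Divisor.correspondence β α hβ hα E v
            = v.ord ((⟨_, hN⟩ : ↥V) : F) := fun v =>
          corr_ord β α hβ hα hfinα hNα E hf0 hE v
        have h2 : ∀ Q : Place k Ft, Finsupp.mapDomain r E Q = Q.ord (red f) :=
          hr f hu E hE
        ext Q
        rw [hΦapp, hΨapp, hr _ hnuU _ h1 Q, hred,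
          corr_ord βt αt hβt hαt hfinαt hNαt _ hredf h2 Q]
  have h := congrArg (fun Θ : Divisor K F →+ Divisor k Ft => Θ D) key
  exact h

end Abs

end Fermat.Agent.RED.H78
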