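import Fermat.Agent.RED.H51_HRDefs
import Fermat.Agent.RED.H36_EQ
import Fermat.Agent.RED.ES.H95_ES3a
import Fermat.Agent.Lib.FrobExists

/-!
# G-RED package HR-RED, case `s = ℓ` of `Stmt_HRcore` (helper11)

`hrcore_ell` : for a reduction map `r` of level `N` (prime to `ℓ`) with the conservation law and
the moving lemma: if `r_* D` is principal then `r_* (T_ℓ D)` is principal.

Route: Eichler–Shimura on divisors (helper95, `stmt_ES3`):
`r_* (T_ℓ D) = φ (r_* D) + ℓ φ⁻¹ (r_* D)` with `φ` the coefficientwise Frobenius of the reduced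
field (from a Frobenius element at `A`, `stmt_EQ`), and semilinear automorphisms preserve
principal divisors.
-/

set_option autoImplicit false
set_option linter.style.haveILetI false
set_option synthInstance.maxHeartbeats 400000
set_option maxHeartbeats 1000000

noncomputable section

open AlgebraicCurve ModularCurve Fermat.Agent.S28.H73 Fermat.Agent.RED Fermat.Agent.RED.H73

namespace Fermat.Agent.RED.H11

/-- **HR core, case `s = ℓ`.** -/
theorem hrcore_ell : ∀ (N ℓ : ℕ) [NeZero N] [NeZero ℓ], ℓ.Prime → ¬ ℓ ∣ N →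
    ∀ A : ValuationSubring (AlgebraicClosure ℚ), A.LiesOverPrime ℓ →
    ∀ (hα : HeckeAlphaBarIntegral (AlgebraicClosure ℚ) N ℓ)
      (hβ : HeckeBetaBarIntegral (AlgebraicClosure ℚ) N ℓ)
      [HasPrincipalDivisors (AlgebraicClosure ℚ) ↥(modularFunctionFieldBar (N * ℓ))],
    ∀ r : Place (AlgebraicClosure ℚ) ↥(modularFunctionFieldBar N) →
        Place (kV A) ↥(redField A (modularFunctionFieldBar N) (hasScale_laurentBaseChange A N)),
      IsRed A (hasScale_laurentBaseChange A N) r →
      HasMove A (hasScale_laurentBaseChange A N) r →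
    ∀ D : Divisor (AlgebraicClosure ℚ) ↥(modularFunctionFieldBar N),
      Divisor.IsPrincipal (Finsupp.mapDomain r D) →
        Divisor.IsPrincipal (Finsupp.mapDomain r (heckeDivBar hα hβ D)) := by
  intro N ℓ _ _ hℓ hℓN A hA hα hβ _ r hr hmove D hD
  obtain ⟨σ₀, hσ₀⟩ := Fermat.Agent.Lib.FrobExists.exists_isFrobeniusAt ℓ hℓ A hA
  obtain ⟨gt, hgt_coeff, -⟩ :=
    H36.stmt_EQ N ℓ hℓ hℓN A hA r hr σ₀ hσ₀.mem_decompositionSubgroup
  have hφ : ∀ (x : ↥(redField A (modularFunctionFieldBar N) (hasScale_laurentBaseChange A N)))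
      (n : ℤ),
      ((gt • x : ↥(redField A (modularFunctionFieldBar N)
          (hasScale_laurentBaseChange A N))) : LaurentSeries (kV A)).coeff n
        = ((x : LaurentSeries (kV A)).coeff n) ^ ℓ := by
    intro x n
    rw [hgt_coeff x n, hσ₀.smul_residue_eq]
  have hES := H95.stmt_ES3 N ℓ hℓ hℓN A hA hα hβ r hr hmove gt hφ D
  rw [hES]
  have hD' : Finsupp.mapDomain r D ∈ Divisor.principal (K := kV A)
      (F := ↥(redField A (modularFunctionFieldBar N) (hasScale_laurentBaseChange A N))) := hD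
  exact AddSubgroup.add_mem _ (SemilinearAut.smul_mem_principal gt hD')
    (AddSubgroup.nsmul_mem _ (SemilinearAut.smul_mem_principal gt⁻¹ hD') ℓ)

end Fermat.Agent.RED.H11
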