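import Fermat.Agent.RED.H51_Final

/-!
# G-RED package HR-RED, leaf DEG (helper51), abstract part: swapping the generators of a plane model

`K` algebraically closed, `F / K` a function field of one variable generated by `x, y`, with a
place `P` where `x` has a simple pole and `y` a pole of order `s`; if `[F : K(x)] = s + 1` and
`x` satisfies a monic equation of degree `s + 1` with coefficients in `K[y]`, then
`[F : K(y)] = s + 1`.

* `sum_poles_eq` : the zeros theorem for `y⁻¹`: `Σ_{poles} (-ord y) = [F : K(y)]`;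
* `le_finrank_of_two_poles`, `exists_other_pole`, `ord_neg_of_rel` (poles of `x` are poles of `y`);
* `finrank_le_of_rel` : `[F : K(y)] ≤ n` from a monic relation of degree `n`;
* `swapDeg_abs` : the statement above.

This file contains no `sorry`.
-/

set_option autoImplicit false
set_option linter.style.haveILetI false
set_option linter.unusedSectionVars false

noncomputable section

open AlgebraicCurve IntermediateField Polynomial

namespace Fermat.Agent.RED.H51

section Rel

variable {R S : Type*} [CommRing R] [Nontrivial R] [CommRing S] [Algebra R S]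

/-- The polynomial `X ^ n + Σ_{i < n} a i X ^ i`. -/
def relPoly (n : ℕ) (a : ℕ → R) : R[X] :=
  X ^ n + ∑ i ∈ Finset.range n, C (a i) * X ^ i

theorem relPoly_degree_lt (n : ℕ) (a : ℕ → R) :
    (∑ i ∈ Finset.range n, C (a i) * X ^ i : R[X]).degree < n := by
  refine lt_of_le_of_lt (degree_sum_le _ _) ?_
  refine (Finset.sup_lt_iff (WithBot.bot_lt_coe n)).mpr fun i hi => ?_
  refine lt_of_le_of_lt (degree_C_mul_X_pow_le i (a i)) ?_
  exact WithBot.coe_lt_coe.mpr (Finset.mem_range.mp hi)

theorem relPoly_monic (n : ℕ) (a : ℕ → R) : (relPoly n a).Monic :=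
  monic_X_pow_add (relPoly_degree_lt n a)

theorem relPoly_natDegree (n : ℕ) (a : ℕ → R) : (relPoly n a).natDegree = n := by
  have h1 : (relPoly n a).degree = ((X : R[X]) ^ n).degree := by
    rw [relPoly, add_comm]
    exact degree_add_eq_right_of_degree_lt (by rw [degree_X_pow]; exact relPoly_degree_lt n a)
  rw [degree_X_pow] at h1
  exact natDegree_eq_of_degree_eq_some h1

theorem relPoly_aeval (n : ℕ) (a : ℕ → R) (x : S) :
    aeval x (relPoly n a) = x ^ n + ∑ i ∈ Finset.range n, algebraMap R S (a i) * x ^ i := by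
  simp [relPoly, aeval_def, eval₂_finsetSum]

end Rel

section Abs

variable {K F : Type} [Field K] [Field F] [Algebra K F]

theorem transcendental_inv' {y : F} (hy : Transcendental K y) : Transcendental K y⁻¹ := by
  intro h
  apply hy
  have := h.inv
  rwa [inv_inv] at this

/-- The zeros theorem for `y⁻¹`: the sum of the pole orders of `y` is `[F : K(y)]`. -/
theorem sum_poles_eq [IsAlgClosed K] (hFF : IsFF K F) (y : F) (hy : Transcendental K y)
    [FiniteDimensional K⟮y⟯ F] :
    {v : Place K F | v.ord y < 0}.Finite ∧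
      ∑ᶠ v ∈ {v : Place K F | v.ord y < 0}, (-(v.ord y)) = (Module.finrank K⟮y⟯ F : ℤ) := by
  have e : K⟮y⁻¹⟯ = K⟮y⟯ := Fermat.Agent.S24.H59.adjoin_inv_eq y
  haveI : FiniteDimensional K⟮y⁻¹⟯ F := by
    rw [e]
    infer_instance
  obtain ⟨hfin, hsum⟩ := zerosAll K F hFF y⁻¹ (transcendental_inv' hy)
  have hset : {v : Place K F | 0 < v.ord y⁻¹} = {v : Place K F | v.ord y < 0} := by
    ext v
    simp only [Set.mem_ofPred_eq, Place.ord_inv]
    omega
  rw [hset] at hfin hsum
  refine ⟨hfin, ?_⟩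
  rw [← Fermat.Agent.S24.H59.finrank_adjoin_inv y, ← hsum]
  refine finsum_mem_congr rfl fun v _ => ?_
  rw [Place.ord_inv]

/-- Two distinct poles of `y` bound `[F : K(y)]` from below. -/
theorem le_finrank_of_two_poles [IsAlgClosed K] (hFF : IsFF K F) (y : F)
    (hy : Transcendental K y) [FiniteDimensional K⟮y⟯ F] {P P' : Place K F} (hne : P ≠ P')
    (hP : P.ord y < 0) (hP' : P'.ord y < 0) :
    -(P.ord y) + -(P'.ord y) ≤ (Module.finrank K⟮y⟯ F : ℤ) := by
  classical
  obtain ⟨hfin, hsum⟩ := sum_poles_eq hFF y hy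
  rw [← hsum, finsum_mem_eq_finite_toFinset_sum _ hfin]
  have hsub : ({P, P'} : Finset (Place K F)) ⊆ hfin.toFinset := by
    intro v hv
    rw [Set.Finite.mem_toFinset, Set.mem_ofPred_eq]
    rcases Finset.mem_insert.mp hv with rfl | hv
    · exact hP
    · rw [Finset.mem_singleton] at hv
      rw [hv]
      exact hP'
  calc -(P.ord y) + -(P'.ord y) = ∑ v ∈ ({P, P'} : Finset (Place K F)), (-(v.ord y)) := by
        rw [Finset.sum_pair hne]
    _ ≤ ∑ v ∈ hfin.toFinset, (-(v.ord y)) := by
        refine Finset.sum_le_sum_of_subset_of_nonneg hsub fun v hv _ => ?_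
        rw [Set.Finite.mem_toFinset, Set.mem_ofPred_eq] at hv
        omega

/-- If `x` has a simple pole at `P` and `[F : K(x)] ≥ 2`, then `x` has another pole. -/
theorem exists_other_pole [IsAlgClosed K] (hFF : IsFF K F) (x : F) (hx : Transcendental K x)
    [FiniteDimensional K⟮x⟯ F] (P : Place K F) (hP : P.ord x = -1)
    (h2 : 2 ≤ Module.finrank K⟮x⟯ F) : ∃ P' : Place K F, P' ≠ P ∧ P'.ord x < 0 := by
  classical
  by_contra hno
  push Not at hno
  obtain ⟨hfin, hsum⟩ := sum_poles_eq hFF x hx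
  have hset : {v : Place K F | v.ord x < 0} = {P} := by
    ext v
    simp only [Set.mem_ofPred_eq, Set.mem_singleton_iff]
    constructor
    · intro hv
      by_contra hvP
      have := hno v hvP
      omega
    · rintro rfl
      omega
  rw [hset, finsum_mem_singleton, hP] at hsum
  have : (2 : ℤ) ≤ (Module.finrank K⟮x⟯ F : ℤ) := by exact_mod_cast h2
  omega

/-- If `x` satisfies a monic equation with coefficients in `K[y]`, every pole of `x` is a pole
of `y`. -/
theorem ord_neg_of_rel (P : Place K F) {x y : F} (n : ℕ) (a : ℕ → F)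
    (ha : ∀ i, a i ∈ Algebra.adjoin K ({y} : Set F))
    (hrel : x ^ n + ∑ i ∈ Finset.range n, a i * x ^ i = 0) (hx : P.ord x < 0) :
    P.ord y < 0 := by
  by_contra hy
  have hyO : y ∈ P.toValuationSubring :=
    (ordGe_zero_iff_mem P y).1 (Or.inr (not_lt.mp hy))
  -- the valuation ring as a `K`-subalgebra
  let O' : Subalgebra K F :=
    { P.toValuationSubring.toSubring with
      algebraMap_mem' := P.algebraMap_mem' }
  have hle : Algebra.adjoin K ({y} : Set F) ≤ O' :=
    Algebra.adjoin_le (by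
      intro z hz
      rw [Set.mem_singleton_iff] at hz
      rw [hz]
      exact hyO)
  have haO : ∀ i, a i ∈ P.toValuationSubring := fun i => hle (ha i)
  -- `x` is integral over the valuation ring
  have hint : IsIntegral ↥P.toValuationSubring x := by
    refine ⟨relPoly n fun i => ⟨a i, haO i⟩, relPoly_monic n _, ?_⟩
    rw [← aeval_def, relPoly_aeval]
    exact hrel
  obtain ⟨z, hz⟩ := IsIntegrallyClosed.isIntegral_iff.mp hint
  have hxO : x ∈ P.toValuationSubring := by
    rw [← hz]
    exact z.2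
  exact (not_mem_iff_ord_neg P).2 hx hxO

/-- `[F : K(y)] ≤ n` if `F = K(x, y)` and `x` satisfies a monic equation of degree `n` over
`K(y)`. -/
theorem finrank_le_of_rel (x y : F)
    (hgen : IntermediateField.adjoin K ({x, y} : Set F) = ⊤) (n : ℕ) (a : ℕ → F)
    (ha : ∀ i, a i ∈ K⟮y⟯)
    (hrel : x ^ n + ∑ i ∈ Finset.range n, a i * x ^ i = 0) :
    Module.finrank ↥K⟮y⟯ F ≤ n := by
  set p : (↥K⟮y⟯)[X] := relPoly n fun i => ⟨a i, ha i⟩ with hp
  have hroot : aeval x p = 0 := by
    rw [hp, relPoly_aeval]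
    exact hrel
  have hmonic : p.Monic := relPoly_monic n _
  have hint : IsIntegral ↥K⟮y⟯ x := ⟨p, hmonic, by rw [← aeval_def]; exact hroot⟩
  have htop : (↥K⟮y⟯)⟮x⟯ = ⊤ := by
    apply IntermediateField.restrictScalars_injective K
    rw [IntermediateField.restrictScalars_top, adjoin_simple_adjoin_simple, ← hgen]
    congr 1
    exact Set.pair_comm y x
  have h1 : Module.finrank ↥K⟮y⟯ ↥((↥K⟮y⟯)⟮x⟯) = (minpoly ↥K⟮y⟯ x).natDegree :=
    IntermediateField.adjoin.finrank hint
  have h2 : Module.finrank ↥K⟮y⟯ ↥((↥K⟮y⟯)⟮x⟯) = Module.finrank ↥K⟮y⟯ F := by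
    rw [htop]
    exact IntermediateField.finrank_top'
  have h3 : (minpoly ↥K⟮y⟯ x).natDegree ≤ p.natDegree :=
    natDegree_le_of_dvd (minpoly.dvd _ x hroot) hmonic.ne_zero
  rw [← h2, h1]
  exact h3.trans (le_of_eq (relPoly_natDegree n _))

/-- **Swapping the generators**: `[F : K(y)] = s + 1`. -/
theorem swapDeg_abs [IsAlgClosed K] (hFF : IsFF K F) (x y : F)
    (hgen : IntermediateField.adjoin K ({x, y} : Set F) = ⊤) (s : ℕ) (hs : 1 ≤ s)
    (hx : Transcendental K x) (hy : Transcendental K y)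
    (hdegx : Module.finrank ↥K⟮x⟯ F = s + 1)
    (P : Place K F) (hPx : P.ord x = -1) (hPy : P.ord y = -(s : ℤ))
    (a : ℕ → F) (ha : ∀ i, a i ∈ Algebra.adjoin K ({y} : Set F))
    (hrel : x ^ (s + 1) + ∑ i ∈ Finset.range (s + 1), a i * x ^ i = 0) :
    Module.finrank ↥K⟮y⟯ F = s + 1 := by
  haveI : FiniteDimensional ↥K⟮x⟯ F :=
    Module.finite_of_finrank_pos (by rw [hdegx]; omega)
  haveI : FiniteDimensional ↥K⟮y⟯ F :=
    Fermat.Agent.S24.ff_finite_of_transcendental x hx y hy
  have ha' : ∀ i, a i ∈ K⟮y⟯ := fun i =>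
    IntermediateField.algebra_adjoin_le_adjoin K _ (ha i)
  have hle := finrank_le_of_rel x y hgen (s + 1) a ha' hrel
  obtain ⟨P', hP'ne, hP'x⟩ := exists_other_pole hFF x hx P hPx (by rw [hdegx]; omega)
  have hP'y := ord_neg_of_rel P' (s + 1) a ha hrel hP'x
  have hPy' : P.ord y < 0 := by
    rw [hPy]
    have : (1 : ℤ) ≤ s := by exact_mod_cast hs
    omega
  have hge := le_finrank_of_two_poles hFF y hy hP'ne.symm hPy' hP'y
  rw [hPy] at hge
  have : ((s : ℤ) + 1) ≤ (Module.finrank ↥K⟮y⟯ F : ℤ) := by omega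
  have h4 : s + 1 ≤ Module.finrank ↥K⟮y⟯ F := by exact_mod_cast this
  omega

end Abs

end Fermat.Agent.RED.H51
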