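import Fermat.Agent.RED.H51_HRDefs

/-!
# G-RED package HR-RED, core (helper95): interface of the degree input

`K = ℚ̄`, `A` a valuation subring over `ℓ`, `k = kV A`, `s ≠ ℓ` a prime, `ℓ ∤ N`.
`β = qExpandAlgHomC _ s : f(q) ↦ f(q^s)`, `F_{N,κ} = modularFunctionFieldFullC κ N`.

* `Stmt_SwapDeg` : `[F_{s,κ} : κ(j(q^s))] = [F_{s,κ} : κ(j(q))]` for `κ = k` and `κ = ℚ̄`
  (the modular equation is symmetric);
* `Stmt_DegBeta` : `[F_{Ns,k} : β F_{N,k}] = [F_{Ns,ℚ̄} : β F_{N,ℚ̄}]`
  (the degeneracy map `β` has no defect).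

`Stmt_DegBeta` follows from `Stmt_SwapDeg`, `GA_deg` (helper73) and the tower law;
`Stmt_HRcore` follows from `Stmt_DegBeta` (`RED/HR/H95_HRMain.lean`).
This file contains no `sorry`.
-/

set_option autoImplicit false
set_option synthInstance.maxHeartbeats 400000
set_option maxHeartbeats 1000000

noncomputable section

open AlgebraicCurve ModularCurve Fermat.Agent.S28.H73 Fermat.Agent.RED.H73

namespace Fermat.Agent.RED.H95

/-- **Symmetry of the modular equation, degrees**: over `κ = k` (char `ℓ ≠ s`) and `κ = ℚ̄`,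
`[κ(j(q), j(q^s)) : κ(j(q^s))] = [κ(j(q), j(q^s)) : κ(j(q))]`. -/
def Stmt_SwapDeg : Prop :=
  ∀ (ℓ s : ℕ) [NeZero s], ℓ.Prime → s.Prime → s ≠ ℓ →
    ∀ A : ValuationSubring (AlgebraicClosure ℚ), A.LiesOverPrime ℓ →
      ((IntermediateField.adjoin (kV A)
          ({qExpand (kV A) s (jqModC (kV A))} : Set (LaurentSeries (kV A)))).relfinrank
          (modularFunctionFieldFullC (kV A) s)
        = (IntermediateField.adjoin (kV A)
          ({jqModC (kV A)} : Set (LaurentSeries (kV A)))).relfinrank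
          (modularFunctionFieldFullC (kV A) s)) ∧
      ((IntermediateField.adjoin (AlgebraicClosure ℚ)
          ({qExpand (AlgebraicClosure ℚ) s (jqModC (AlgebraicClosure ℚ))} :
            Set (LaurentSeries (AlgebraicClosure ℚ)))).relfinrank
          (modularFunctionFieldFullC (AlgebraicClosure ℚ) s)
        = (IntermediateField.adjoin (AlgebraicClosure ℚ)
          ({jqModC (AlgebraicClosure ℚ)} : Set (LaurentSeries (AlgebraicClosure ℚ)))).relfinrank
          (modularFunctionFieldFullC (AlgebraicClosure ℚ) s))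

/-- **The degeneracy map `β` has no defect**: `[F~_{Ns} : β F~_N] = [F_{Ns} : β F_N]`
(`s ∣ N` allowed). -/
def Stmt_DegBeta : Prop :=
  ∀ (N ℓ s : ℕ) [NeZero N] [NeZero s], ℓ.Prime → s.Prime → s ≠ ℓ → ¬ ℓ ∣ N →
    ∀ A : ValuationSubring (AlgebraicClosure ℚ), A.LiesOverPrime ℓ →
      ((modularFunctionFieldFullC (kV A) N).map (qExpandAlgHomC (kV A) s)).relfinrank
          (modularFunctionFieldFullC (kV A) (N * s))
        = ((modularFunctionFieldFullC (AlgebraicClosure ℚ) N).map
            (qExpandAlgHomC (AlgebraicClosure ℚ) s)).relfinrank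
          (modularFunctionFieldFullC (AlgebraicClosure ℚ) (N * s))

end Fermat.Agent.RED.H95
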