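import Fermat.Agent.RED.HR.H51_DegAbs
import Fermat.Agent.RED.HR.H95_HRDefs
import Fermat.Agent.RED.KD.H22_CuspPlaces
import Fermat.Agent.RED.H73_GAFinal
import Fermat.Agent.RED.H73_GACard
import Fermat.Agent.RED.H95_IsFF
import Fermat.Agent.S15.H23_ModEq

/-!
# G-RED package HR-RED, leaf DEG (helper51): symmetry of the modular equation, degrees

`stmt_SwapDeg : H95.Stmt_SwapDeg` : over `κ = k` (residue field of `A` over `ℓ ≠ s`) and
`κ = ℚ̄`, `[κ(j, j_s) : κ(j_s)] = [κ(j, j_s) : κ(j)]`, `j_s = j(q^s)`, `s` prime.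

Inputs: the modular equation `Φ_s(j, j_s) = 0` of helper23 (`S15.H23.stmt_modEq`), monic in both
variables with integral coefficients (so it reduces modulo `ℓ`), `[κ(j, j_s) : κ(j)] = s + 1`
(helper73: `relfinrank_fullC_bar`, `stmt_GA_deg`), the zeros theorem (`H51.zerosAll`) and the
`q`-order place (helper22: `laurentPlace`).  Abstract part: `RED/HR/H51_DegAbs.lean`.

This file contains no `sorry`.
-/

set_option autoImplicit false
set_option linter.style.haveILetI false
set_option linter.unusedSectionVars false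
set_option synthInstance.maxHeartbeats 400000
set_option maxHeartbeats 1000000

noncomputable section

open AlgebraicCurve ModularCurve IntermediateField
open Fermat.Agent.S28.H73 Fermat.Agent.RED.H73 Fermat.Agent.RED

namespace Fermat.Agent.RED.H51

open Fermat.Agent.S15 (modEqVal IsModEq)

/-! ## Algebra of the modular equation -/

section ModEqAlg

theorem algebraMap_laurent_single {R : Type*} [CommRing R] (c : R) :
    algebraMap R (LaurentSeries R) c = HahnSeries.single 0 c := by
  have h1 : algebraMap R (PowerSeries R) c = PowerSeries.C c := by simp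
  rw [HahnSeries.algebraMap_apply', h1, HahnSeries.ofPowerSeries_C]
  rfl

theorem coeffMap_algebraMap {R S : Type*} [CommRing R] [CommRing S] (f : R →+* S) (a : R) :
    coeffMap f (algebraMap R (LaurentSeries R) a) = algebraMap S (LaurentSeries S) (f a) := by
  rw [algebraMap_laurent_single, algebraMap_laurent_single, coeffMap_single]

theorem map_modEqVal {K K' R R' : Type*} [CommRing K] [CommRing K'] [CommRing R] [CommRing R']
    [Algebra K R] [Algebra K' R'] (φ : K →+* K') (f : R →+* R')
    (hf : ∀ a, f (algebraMap K R a) = algebraMap K' R' (φ a)) (p : ℕ) (c : ℕ → ℕ → K)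
    (x y : R) :
    f (modEqVal p c x y) = modEqVal p (fun i k => φ (c i k)) (f x) (f y) := by
  simp only [modEqVal, map_add, map_sub, map_mul, map_pow, map_sum, hf]

variable {K R : Type*} [CommRing K] [CommRing R] [Algebra K R]

/-- The coefficient of `X ^ i` (`i ≤ s`) in the modular equation, as a polynomial in `y`. -/
def modEqCoef (s : ℕ) (c : ℕ → ℕ → K) (y : R) (i : ℕ) : R :=
  (if i = 0 then y ^ (s + 1) else 0) - (if i = s then y ^ s else 0) +
    ∑ k ∈ Finset.range (s + 1), algebraMap K R (c i k) * y ^ k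

theorem modEqCoef_mem (s : ℕ) (c : ℕ → ℕ → K) (y : R) (i : ℕ) :
    modEqCoef s c y i ∈ Algebra.adjoin K ({y} : Set R) := by
  have hy : y ∈ Algebra.adjoin K ({y} : Set R) := Algebra.subset_adjoin rfl
  refine add_mem (sub_mem ?_ ?_) (sum_mem fun k _ => mul_mem (Subalgebra.algebraMap_mem _ _)
    (pow_mem hy k))
  · split_ifs
    · exact pow_mem hy _
    · exact zero_mem _
  · split_ifs
    · exact pow_mem hy _
    · exact zero_mem _

theorem modEqVal_eq_rel (s : ℕ) (c : ℕ → ℕ → K) (x y : R) :
    modEqVal s c x y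
      = x ^ (s + 1) + ∑ i ∈ Finset.range (s + 1), modEqCoef s c y i * x ^ i := by
  have h0 : ∑ i ∈ Finset.range (s + 1), (if i = 0 then y ^ (s + 1) else 0) * x ^ i
      = y ^ (s + 1) := by
    rw [Finset.sum_eq_single 0]
    · simp
    · intro i _ hi
      rw [if_neg hi, zero_mul]
    · intro h
      exact absurd (Finset.mem_range.mpr (Nat.succ_pos s)) h
  have hs : ∑ i ∈ Finset.range (s + 1), (if i = s then y ^ s else 0) * x ^ i
      = x ^ s * y ^ s := by
    rw [Finset.sum_eq_single s]
    · simp [mul_comm]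
    · intro i _ hi
      rw [if_neg hi, zero_mul]
    · intro h
      exact absurd (Finset.mem_range.mpr (Nat.lt_succ_self s)) h
  have hc : ∑ i ∈ Finset.range (s + 1),
      (∑ k ∈ Finset.range (s + 1), algebraMap K R (c i k) * y ^ k) * x ^ i
      = ∑ i ∈ Finset.range (s + 1), ∑ k ∈ Finset.range (s + 1),
          algebraMap K R (c i k) * x ^ i * y ^ k := by
    refine Finset.sum_congr rfl fun i _ => ?_
    rw [Finset.sum_mul]
    refine Finset.sum_congr rfl fun k _ => ?_
    ring
  simp only [modEqCoef, add_mul, sub_mul, Finset.sum_add_distrib, Finset.sum_sub_distrib]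
  rw [h0, hs, hc, modEqVal]
  ring

end ModEqAlg

/-! ## The field `κ(j, j_s)` -/

section Field

variable (κ : Type) [Field κ] (s : ℕ) [NeZero s]

/-- `j` as an element of `κ(j(q^d) : d ∣ s)`. -/
def jE : ↥(modularFunctionFieldFullC κ s) := ⟨jqModC κ, jqModC_mem_full κ s⟩

/-- `j(q^s)` as an element of `κ(j(q^d) : d ∣ s)`. -/
def jsE : ↥(modularFunctionFieldFullC κ s) :=
  ⟨qExpand κ s (jqModC κ), jqModCd_mem_full κ s dvd_rfl⟩

theorem coe_jE : ((jE κ s : ↥(modularFunctionFieldFullC κ s)) : LaurentSeries κ) = jqModC κ :=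
  rfl

theorem coe_jsE : ((jsE κ s : ↥(modularFunctionFieldFullC κ s)) : LaurentSeries κ)
    = qExpand κ s (jqModC κ) := rfl

theorem order_jqModC : (jqModC κ).order = -1 := by
  have h := JL_order κ 1
  have e : JL κ 1 = jqModC κ := qExpand_one_apply _
  rw [e] at h
  rw [h]
  norm_num

theorem order_qExpand_jqModC : (qExpand κ s (jqModC κ)).order = -(s : ℤ) := JL_order κ s

/-- For `s` prime, `κ(j(q^d) : d ∣ s)` is generated by `j` and `j(q^s)`. -/
theorem adjoin_jE_jsE (hs : s.Prime) :
    IntermediateField.adjoin κ ({jE κ s, jsE κ s} : Set ↥(modularFunctionFieldFullC κ s))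
      = ⊤ := by
  rw [eq_top_iff]
  rintro ⟨z, hz⟩ -
  have hle : modularFunctionFieldFullC κ s ≤
      (IntermediateField.adjoin κ
        ({jE κ s, jsE κ s} : Set ↥(modularFunctionFieldFullC κ s))).map
        (modularFunctionFieldFullC κ s).val := by
    show IntermediateField.adjoin κ (divisorExpansionsC κ s) ≤ _
    rw [IntermediateField.adjoin_le_iff]
    rintro _ ⟨d, hd0, hd, rfl⟩
    rcases (Nat.dvd_prime hs).mp hd with h1 | h1
    · refine ⟨jE κ s, IntermediateField.subset_adjoin κ _ (Set.mem_insert _ _), ?_⟩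
      show jqModC κ = qExpand κ d (jqModC κ)
      rw [qExpand_congr h1, qExpand_one_apply]
    · refine ⟨jsE κ s, IntermediateField.subset_adjoin κ _
        (Set.mem_insert_of_mem _ rfl), ?_⟩
      show qExpand κ s (jqModC κ) = qExpand κ d (jqModC κ)
      rw [qExpand_congr h1]
  obtain ⟨w, hw, hwz⟩ := hle hz
  have : w = ⟨z, hz⟩ := Subtype.ext hwz
  rw [← this]
  exact hw

/-- **Symmetry of the modular equation, degrees**, over an algebraically closed field `κ`:
if `κ(j, j_s)` is a function field with `[κ(j, j_s) : κ(j)] = s + 1` and the modular equation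
holds over `κ`, then `[κ(j, j_s) : κ(j_s)] = s + 1`. -/
theorem swapDeg_fullC [IsAlgClosed κ] (hs : s.Prime)
    (hFF : IsFF κ ↥(modularFunctionFieldFullC κ s))
    (hdeg : (IntermediateField.adjoin κ ({jqModC κ} : Set (LaurentSeries κ))).relfinrank
      (modularFunctionFieldFullC κ s) = s + 1)
    (c : ℕ → ℕ → κ)
    (hc : modEqVal s c (jqModC κ) (qExpand κ s (jqModC κ)) = 0) :
    (IntermediateField.adjoin κ
        ({qExpand κ s (jqModC κ)} : Set (LaurentSeries κ))).relfinrank
      (modularFunctionFieldFullC κ s) = s + 1 := by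
  set E := modularFunctionFieldFullC κ s with hE
  have hx0 : (jqModC κ).order < 0 := by rw [order_jqModC]; norm_num
  have hy0 : (qExpand κ s (jqModC κ)).order < 0 := by
    rw [order_qExpand_jqModC]
    have : (0 : ℤ) < s := by exact_mod_cast hs.pos
    omega
  have hx : Transcendental κ (jE κ s) :=
    transcendental_subtype E (jE κ s) (transcendental_of_order_neg hx0)
  have hy : Transcendental κ (jsE κ s) :=
    transcendental_subtype E (jsE κ s) (transcendental_of_order_neg hy0)
  have hdegx : Module.finrank ↥(κ⟮jE κ s⟯) ↥E = s + 1 := by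
    rw [finrank_adjoin_simple_subtype E (jE κ s)]
    exact hdeg
  -- the `q`-order place
  have hxne : jE κ s ≠ 0 := fun h => hx (h ▸ isAlgebraic_zero)
  have hyne : jsE κ s ≠ 0 := fun h => hy (h ▸ isAlgebraic_zero)
  set P : Place κ ↥E :=
    Fermat.Agent.RED.KD.H22.laurentPlace E (jE κ s) (order_jqModC κ) with hP
  have hPx : P.ord (jE κ s) = -1 := by
    rw [hP, Fermat.Agent.RED.KD.H22.ord_laurentPlace E (jE κ s) (order_jqModC κ) _ hxne]
    exact order_jqModC κ
  have hPy : P.ord (jsE κ s) = -(s : ℤ) := by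
    rw [hP, Fermat.Agent.RED.KD.H22.ord_laurentPlace E (jE κ s) (order_jqModC κ) _ hyne]
    exact order_qExpand_jqModC κ s
  -- the relation in `E`
  have hrel0 : modEqVal s c (jE κ s) (jsE κ s) = 0 := by
    have h1 := map_modEqVal (RingHom.id κ) (E.val : ↥E →+* LaurentSeries κ)
      (fun a => E.val.commutes a) s c (jE κ s) (jsE κ s)
    have h2 : (E.val : ↥E →+* LaurentSeries κ) (modEqVal s c (jE κ s) (jsE κ s)) = 0 :=
      h1.trans hc
    exact Subtype.ext h2
  rw [modEqVal_eq_rel] at hrel0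
  have h := swapDeg_abs hFF (jE κ s) (jsE κ s) (adjoin_jE_jsE κ s hs) s hs.one_le hx hy hdegx
    P hPx hPy (modEqCoef s c (jsE κ s)) (modEqCoef_mem s c (jsE κ s)) hrel0
  exact (finrank_adjoin_simple_subtype E (jsE κ s)).symm.trans h

end Field

/-! ## The modular equation over `ℚ̄` and over the residue field -/

section ModEq

theorem coeffMap_injective_of_injective {R S : Type*} [CommRing R] [CommRing S] (f : R →+* S)
    (hf : Function.Injective f) : Function.Injective (coeffMap f) := by
  intro x y hxy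
  ext n
  have := congrArg (fun z : LaurentSeries S => z.coeff n) hxy
  exact hf (by simpa using this)

/-- The modular equation of prime level `s` over `ℚ̄`, as an identity of Laurent series. -/
theorem modEq_bar (s : ℕ) [NeZero s] (hs : s.Prime) :
    ∃ c : ℕ → ℕ → AlgebraicClosure ℚ, (∀ i k, IsIntegral ℤ (c i k)) ∧
      modEqVal s c (jqModC (AlgebraicClosure ℚ))
        (qExpand (AlgebraicClosure ℚ) s (jqModC (AlgebraicClosure ℚ))) = 0 := by
  obtain ⟨c, hc⟩ := Fermat.Agent.S15.H23.stmt_modEq s hs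
  refine ⟨c, hc.integral, ?_⟩
  have h1 := map_modEqVal (RingHom.id (AlgebraicClosure ℚ))
    ((modularFunctionFieldBar s).val :
      ↥(modularFunctionFieldBar s) →+* LaurentSeries (AlgebraicClosure ℚ))
    (fun a => (modularFunctionFieldBar s).val.commutes a) s c
    (Fermat.Agent.S15.jBar s) (Fermat.Agent.S15.jBarN s)
  rw [hc.rel, map_zero] at h1
  have e1 : ((modularFunctionFieldBar s).val :
      ↥(modularFunctionFieldBar s) →+* LaurentSeries (AlgebraicClosure ℚ))
      (Fermat.Agent.S15.jBar s) = jqModC (AlgebraicClosure ℚ) := by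
    show coeffEmb (AlgebraicClosure ℚ) jq = _
    have := coeffEmb_qExpand_jq (L := AlgebraicClosure ℚ) 1
    rwa [qExpand_one_apply, qExpand_one_apply] at this
  have e2 : ((modularFunctionFieldBar s).val :
      ↥(modularFunctionFieldBar s) →+* LaurentSeries (AlgebraicClosure ℚ))
      (Fermat.Agent.S15.jBarN s)
      = qExpand (AlgebraicClosure ℚ) s (jqModC (AlgebraicClosure ℚ)) :=
    coeffEmb_qExpand_jq (L := AlgebraicClosure ℚ) s
  rw [e1, e2] at h1
  exact h1.symm

/-- Algebraic integers lie in every valuation subring. -/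
theorem mem_valuationSubring_of_isIntegral {L : Type*} [Field L] (A : ValuationSubring L)
    {x : L} (hx : IsIntegral ℤ x) : x ∈ A := by
  have h1 : IsIntegral ↥A x := hx.tower_top
  obtain ⟨y, hy⟩ := IsIntegrallyClosed.isIntegral_iff.mp h1
  rw [← hy]
  exact y.2

/-- The modular equation of prime level `s` over the residue field of a valuation subring of
`ℚ̄`. -/
theorem modEq_res (A : ValuationSubring (AlgebraicClosure ℚ)) (s : ℕ) [NeZero s]
    (hs : s.Prime) :
    ∃ c : ℕ → ℕ → kV A,
      modEqVal s c (jqModC (kV A)) (qExpand (kV A) s (jqModC (kV A))) = 0 := by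
  obtain ⟨c, hint, hc⟩ := modEq_bar s hs
  set c' : ℕ → ℕ → ↥A := fun i k => ⟨c i k, mem_valuationSubring_of_isIntegral A (hint i k)⟩
    with hc'
  -- the identity over `A`
  have hA : modEqVal s c' (jqModC ↥A) (qExpand ↥A s (jqModC ↥A)) = 0 := by
    apply coeffMap_injective_of_injective A.subtype Subtype.val_injective
    rw [map_zero, map_modEqVal A.subtype (coeffMap A.subtype)
      (fun a => coeffMap_algebraMap A.subtype a), coeffMap_qExpand, coeffMap_jqModC]
    exact hc
  refine ⟨fun i k => resV A (c' i k), ?_⟩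
  have h2 := map_modEqVal (resV A) (coeffMap (resV A))
    (fun a => coeffMap_algebraMap (resV A) a) s c' (jqModC ↥A) (qExpand ↥A s (jqModC ↥A))
  rw [hA, map_zero, coeffMap_qExpand, coeffMap_jqModC] at h2
  exact h2.symm

end ModEq

/-! ## `Stmt_SwapDeg` -/

theorem isFF_fullC_bar (N : ℕ) [NeZero N] :
    IsFF (AlgebraicClosure ℚ) ↥(modularFunctionFieldFullC (AlgebraicClosure ℚ) N) := by
  have h := H95.stmt_HKA_isFF N
  have e : modularFunctionFieldBar N = modularFunctionFieldFullC (AlgebraicClosure ℚ) N :=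
    laurentBaseChange_full_eq N
  rw [e] at h
  exact h

theorem isFF_fullC_res (N ℓ : ℕ) [NeZero N] (hℓ : ℓ.Prime) (hℓN : ¬ ℓ ∣ N)
    (A : ValuationSubring (AlgebraicClosure ℚ)) (hA : A.LiesOverPrime ℓ) :
    IsFF (kV A) ↥(modularFunctionFieldFullC (kV A) N) := by
  have h1 := isFF_redField_bar N ℓ hℓ hℓN A hA
  have h2 := stmt_GA N ℓ hℓ hℓN A hA
  rw [h2] at h1
  exact h1

/-- `[κ(j(q^d) : d ∣ N) : κ(j)] = ψ(N)` over the residue field. -/
theorem relfinrank_fullC_res (N ℓ : ℕ) [NeZero N] (hℓ : ℓ.Prime) (hℓN : ¬ ℓ ∣ N)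
    (A : ValuationSubring (AlgebraicClosure ℚ)) (hA : A.LiesOverPrime ℓ) :
    (IntermediateField.adjoin (kV A) ({jqModC (kV A)} : Set (LaurentSeries (kV A)))).relfinrank
      (modularFunctionFieldFullC (kV A) N) = dedekindPsi N := by
  rw [(stmt_GA_deg N ℓ hℓ hℓN A hA).1, relfinrank_fullC_bar]

/-- `[κ(j, j_s) : κ(j_s)] = s + 1` over `ℚ̄`. -/
theorem relfinrank_swap_bar (s : ℕ) [NeZero s] (hs : s.Prime) :
    (IntermediateField.adjoin (AlgebraicClosure ℚ)
        ({qExpand (AlgebraicClosure ℚ) s (jqModC (AlgebraicClosure ℚ))} :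
          Set (LaurentSeries (AlgebraicClosure ℚ)))).relfinrank
      (modularFunctionFieldFullC (AlgebraicClosure ℚ) s) = s + 1 := by
  obtain ⟨c, -, hc⟩ := modEq_bar s hs
  refine swapDeg_fullC (AlgebraicClosure ℚ) s hs (isFF_fullC_bar s) ?_ c hc
  rw [relfinrank_fullC_bar, dedekindPsi_prime hs]

/-- `[κ(j, j_s) : κ(j_s)] = s + 1` over the residue field of `A` over `ℓ ≠ s`. -/
theorem relfinrank_swap_res (ℓ s : ℕ) [NeZero s] (hℓ : ℓ.Prime) (hs : s.Prime) (hsℓ : s ≠ ℓ)
    (A : ValuationSubring (AlgebraicClosure ℚ)) (hA : A.LiesOverPrime ℓ) :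
    (IntermediateField.adjoin (kV A)
        ({qExpand (kV A) s (jqModC (kV A))} : Set (LaurentSeries (kV A)))).relfinrank
      (modularFunctionFieldFullC (kV A) s) = s + 1 := by
  haveI : IsAlgClosed (kV A) := isAlgClosed_kV A
  have hℓs : ¬ ℓ ∣ s := fun h => hsℓ ((Nat.prime_dvd_prime_iff_eq hℓ hs).mp h).symm
  obtain ⟨c, hc⟩ := modEq_res A s hs
  refine swapDeg_fullC (kV A) s hs (isFF_fullC_res s ℓ hℓ hℓs A hA) ?_ c hc
  rw [relfinrank_fullC_res s ℓ hℓ hℓs A hA, dedekindPsi_prime hs]

/-- **Symmetry of the modular equation, degrees.** -/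
theorem stmt_SwapDeg : Fermat.Agent.RED.H95.Stmt_SwapDeg := by
  intro ℓ s _ hℓ hs hsℓ A hA
  have hℓs : ¬ ℓ ∣ s := fun h => hsℓ ((Nat.prime_dvd_prime_iff_eq hℓ hs).mp h).symm
  refine ⟨?_, ?_⟩
  · rw [relfinrank_swap_res ℓ s hℓ hs hsℓ A hA, relfinrank_fullC_res s ℓ hℓ hℓs A hA,
      dedekindPsi_prime hs]
  · rw [relfinrank_swap_bar s hs, relfinrank_fullC_bar, dedekindPsi_prime hs]

end Fermat.Agent.RED.H51
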