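import Fermat.Agent.RED.HR.H51_DegSwap

/-!
# G-RED package HR-RED, leaf DEG (helper51): the degeneracy map `β` has no defect

`stmt_DegBeta : H95.Stmt_DegBeta` : `[F~_{Ns} : β F~_N] = [F_{Ns} : β F_N]`, `β : f(q) ↦ f(q^s)`,
`s ≠ ℓ` prime, `ℓ ∤ N` (`s ∣ N` allowed).

Tower law (`degBeta_mul`): over `κ = k, ℚ̄`, with `J = κ(j)`, `J_s = κ(j(q^s)) = β J`,
`E_L = κ(j(q^d) : d ∣ L)`:
`ψ(N) [E_{Ns} : β E_N] = [β E_N : J_s] [E_{Ns} : β E_N] = [E_{Ns} : J_s]
  = [E_s : J_s] [E_{Ns} : E_s] = [E_s : J] [E_{Ns} : E_s] = [E_{Ns} : J] = ψ(Ns)`.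

This file contains no `sorry`.
-/

set_option autoImplicit false
set_option linter.style.haveILetI false
set_option linter.unusedSectionVars false
set_option synthInstance.maxHeartbeats 400000
set_option maxHeartbeats 1000000

noncomputable section

open AlgebraicCurve ModularCurve IntermediateField
open Fermat.Agent.S28.H73 Fermat.Agent.RED.H73 Fermat.Agent.RED

namespace Fermat.Agent.RED.H51

section Tower

variable (κ : Type) [Field κ]

theorem fullC_le_of_dvd {N M : ℕ} (h : N ∣ M) :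
    modularFunctionFieldFullC κ N ≤ modularFunctionFieldFullC κ M := by
  apply IntermediateField.adjoin.mono
  rintro x ⟨d, hd0, hd, hx⟩
  exact ⟨d, hd0, hd.trans h, hx⟩

theorem adjoin_jqModC_le_fullC (N : ℕ) :
    IntermediateField.adjoin κ ({jqModC κ} : Set (LaurentSeries κ))
      ≤ modularFunctionFieldFullC κ N := by
  rw [IntermediateField.adjoin_le_iff]
  rintro x hx
  rw [Set.mem_singleton_iff] at hx
  subst hx
  exact jqModC_mem_full κ N

theorem adjoin_js_le_fullC (s : ℕ) [NeZero s] {M : ℕ} (h : s ∣ M) :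
    IntermediateField.adjoin κ ({qExpand κ s (jqModC κ)} : Set (LaurentSeries κ))
      ≤ modularFunctionFieldFullC κ M := by
  rw [IntermediateField.adjoin_le_iff]
  rintro x hx
  rw [Set.mem_singleton_iff] at hx
  subst hx
  exact jqModCd_mem_full κ M h

/-- `β κ(j) = κ(j(q^s))`. -/
theorem map_adjoin_jqModC (s : ℕ) [NeZero s] :
    (IntermediateField.adjoin κ ({jqModC κ} : Set (LaurentSeries κ))).map (qExpandAlgHomC κ s)
      = IntermediateField.adjoin κ ({qExpand κ s (jqModC κ)} : Set (LaurentSeries κ)) := by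
  rw [IntermediateField.adjoin_map, Set.image_singleton]
  rfl

/-- `β E_N ≤ E_{Ns}`. -/
theorem map_fullC_le (N s : ℕ) [NeZero s] :
    (modularFunctionFieldFullC κ N).map (qExpandAlgHomC κ s)
      ≤ modularFunctionFieldFullC κ (N * s) := by
  rw [modularFunctionFieldFullC, IntermediateField.adjoin_map, IntermediateField.adjoin_le_iff]
  rintro _ ⟨_, ⟨d, hd0, hd, rfl⟩, rfl⟩
  haveI : NeZero (s * d) := ⟨Nat.mul_ne_zero (NeZero.ne s) (NeZero.ne d)⟩
  have e : qExpandAlgHomC κ s (qExpand κ d (jqModC κ)) = qExpand κ (s * d) (jqModC κ) := by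
    rw [qExpandAlgHomC_apply, qExpand_qExpand]
  rw [e]
  exact jqModCd_mem_full κ (N * s) (by rw [mul_comm s d]; exact Nat.mul_dvd_mul hd dvd_rfl)

/-- The tower law for `β`. -/
theorem degBeta_mul (N s : ℕ) [NeZero N] [NeZero s] {a b : ℕ}
    (hN : (IntermediateField.adjoin κ ({jqModC κ} : Set (LaurentSeries κ))).relfinrank
      (modularFunctionFieldFullC κ N) = a)
    (hNs : (IntermediateField.adjoin κ ({jqModC κ} : Set (LaurentSeries κ))).relfinrank
      (modularFunctionFieldFullC κ (N * s)) = b)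
    (hswap : (IntermediateField.adjoin κ
          ({qExpand κ s (jqModC κ)} : Set (LaurentSeries κ))).relfinrank
          (modularFunctionFieldFullC κ s)
        = (IntermediateField.adjoin κ ({jqModC κ} : Set (LaurentSeries κ))).relfinrank
          (modularFunctionFieldFullC κ s)) :
    a * ((modularFunctionFieldFullC κ N).map (qExpandAlgHomC κ s)).relfinrank
        (modularFunctionFieldFullC κ (N * s)) = b := by
  set J := IntermediateField.adjoin κ ({jqModC κ} : Set (LaurentSeries κ)) with hJ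
  set Js := IntermediateField.adjoin κ ({qExpand κ s (jqModC κ)} : Set (LaurentSeries κ))
    with hJs
  have hsNs : s ∣ N * s := Dvd.intro_left N rfl
  -- `[β E_N : J_s] = [E_N : J]`
  have h1 : Js.relfinrank ((modularFunctionFieldFullC κ N).map (qExpandAlgHomC κ s)) = a := by
    have := relfinrank_map_map J (modularFunctionFieldFullC κ N) (qExpandAlgHomC κ s)
    rw [map_adjoin_jqModC] at this
    rw [this, hN]
  have hle1 : Js ≤ (modularFunctionFieldFullC κ N).map (qExpandAlgHomC κ s) := by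
    rw [hJs, ← map_adjoin_jqModC]
    exact IntermediateField.map_mono _ (adjoin_jqModC_le_fullC κ N)
  have t1 := relfinrank_mul_relfinrank hle1 (map_fullC_le κ N s)
  have t2 := relfinrank_mul_relfinrank (adjoin_js_le_fullC κ s dvd_rfl)
    (fullC_le_of_dvd κ hsNs)
  have t3 := relfinrank_mul_relfinrank (adjoin_jqModC_le_fullC κ s)
    (fullC_le_of_dvd κ hsNs)
  rw [h1] at t1
  rw [t1, ← t2, hswap, t3, hNs]

end Tower

/-- The common value: `ψ(N) [E_{Ns} : β E_N] = ψ(Ns)` over `ℚ̄`. -/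
theorem degBeta_bar (N s : ℕ) [NeZero N] [NeZero s] (hs : s.Prime) :
    dedekindPsi N * ((modularFunctionFieldFullC (AlgebraicClosure ℚ) N).map
        (qExpandAlgHomC (AlgebraicClosure ℚ) s)).relfinrank
        (modularFunctionFieldFullC (AlgebraicClosure ℚ) (N * s)) = dedekindPsi (N * s) := by
  haveI : NeZero (N * s) := ⟨Nat.mul_ne_zero (NeZero.ne N) (NeZero.ne s)⟩
  refine degBeta_mul (AlgebraicClosure ℚ) N s (relfinrank_fullC_bar N)
    (relfinrank_fullC_bar (N * s)) ?_
  rw [relfinrank_swap_bar s hs, relfinrank_fullC_bar, dedekindPsi_prime hs]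

/-- **The degeneracy map `β` has no defect.** -/
theorem stmt_DegBeta : Fermat.Agent.RED.H95.Stmt_DegBeta := by
  intro N ℓ s _ _ hℓ hs hsℓ hℓN A hA
  haveI : NeZero (N * s) := ⟨Nat.mul_ne_zero (NeZero.ne N) (NeZero.ne s)⟩
  have hℓs : ¬ ℓ ∣ s := fun h => hsℓ ((Nat.prime_dvd_prime_iff_eq hℓ hs).mp h).symm
  have hℓNs : ¬ ℓ ∣ N * s := fun h => (hℓ.dvd_mul.mp h).elim hℓN hℓs
  obtain ⟨hsw1, hsw2⟩ := stmt_SwapDeg ℓ s hℓ hs hsℓ A hA
  have hψ : 0 < dedekindPsi N := Fermat.Agent.RED.KD.H22.dedekindPsi_pos N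
  have e1 := degBeta_mul (kV A) N s (relfinrank_fullC_res N ℓ hℓ hℓN A hA)
    (relfinrank_fullC_res (N * s) ℓ hℓ hℓNs A hA) hsw1
  have e2 := degBeta_mul (AlgebraicClosure ℚ) N s (relfinrank_fullC_bar N)
    (relfinrank_fullC_bar (N * s)) hsw2
  exact Nat.eq_of_mul_eq_mul_left hψ (e1.trans e2.symm)

end Fermat.Agent.RED.H51
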