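import Fermat.Agent.RED.H51_NDDescent

/-!
# G-RED package HR-RED, abstract part (helper63): reduction commutes with pull-back and
push-forward of divisors

`F'/F`, `Ft'/Ft` finite extensions of function fields, `V ⊆ V'` valuation rings with reduction
maps `red`, `red'` onto `Ft ⊆ Ft'`, compatible with the inclusions, `r`, `r'` the reduction maps
of places with the conservation law (`H51.IsRedAbs`), `r` with the moving lemma
(`H51.HasMoveAbs`), and `r (P' | F) = (r' P') | Ft` for all places `P'` of `F'`.

* `mapDomain_pullback_unit` : `r'_* (π^* div a) = π~^* (r_* div a)` for units `a` of `V`;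
* `mapDomain_pullback_single` : `r'_* (π^* P) = π~^* (r P)`  (pole-only function at `P`, compare the
  parts over `r P`);
* `mapDomain_pullback` : **PULL-COMPAT** `r'_* (π^* D) = π~^* (r_* D)` for all divisors `D`;
* `mapDomain_pushforward` : **PUSH-COMPAT** `r_* (π_* D') = π~_* (r'_* D')`.
-/

set_option autoImplicit false
set_option linter.style.haveILetI false
set_option linter.unusedSectionVars false

noncomputable section

open AlgebraicCurve

namespace Fermat.Agent.RED.H63

open Fermat.Agent.RED.H51

/-- `(f_* x)(b) = 0` if no point of the support of `x` maps to `b`. -/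
theorem mapDomain_apply_eq_zero {α β : Type*} (f : α → β) (x : α →₀ ℤ) (b : β)
    (h : ∀ i ∈ x.support, f i ≠ b) : Finsupp.mapDomain f x b = 0 := by
  classical
  rw [Finsupp.mapDomain, Finsupp.sum_apply, Finsupp.sum]
  refine Finset.sum_eq_zero fun i hi => ?_
  rw [Finsupp.single_apply, if_neg (h i hi)]

section Abs

variable {K k F F' Ft Ft' : Type} [Field K] [Field k] [Field F] [Field F'] [Field Ft] [Field Ft']
  [Algebra K F] [Algebra K F'] [Algebra F F'] [IsScalarTower K F F'] [Algebra.IsIntegral F F']
  [Algebra k Ft] [Algebra k Ft'] [Algebra Ft Ft'] [IsScalarTower k Ft Ft']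
  [Algebra.IsIntegral Ft Ft']
  [HasPrincipalDivisors K F] [HasPrincipalDivisors K F'] [HasPrincipalDivisors k Ft']

variable (V : ValuationSubring F) (V' : ValuationSubring F') (red : ↥V →+* Ft)
  (red' : ↥V' →+* Ft') (r : Place K F → Place k Ft) (r' : Place K F' → Place k Ft')

/-- The image of a unit of `V` is a unit of `V'`. -/
theorem isUnit_incl (hmem : ∀ a : F, a ∈ V → algebraMap F F' a ∈ V') {a : ↥V} (ha : IsUnit a) :
    IsUnit (⟨algebraMap F F' (a : F), hmem _ a.2⟩ : ↥V') := by
  obtain ⟨u, rfl⟩ := ha
  refine IsUnit.of_mul_eq_one (⟨algebraMap F F' ((↑u⁻¹ : ↥V) : F), hmem _ (↑u⁻¹ : ↥V).2⟩ : ↥V')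
    (Subtype.ext ?_)
  show algebraMap F F' ((u : ↥V) : F) * algebraMap F F' ((↑u⁻¹ : ↥V) : F) = 1
  rw [← map_mul, ← MulMemClass.coe_mul, Units.mul_inv, OneMemClass.coe_one, map_one]

variable {V V' red red' r r'}

/-- **Reduction commutes with the pull-back of the divisor of a unit.** -/
theorem mapDomain_pullback_unit (hmem : ∀ a : F, a ∈ V → algebraMap F F' a ∈ V')
    (hcompat : ∀ (a : ↥V) (ha : algebraMap F F' (a : F) ∈ V'),
      red' ⟨algebraMap F F' (a : F), ha⟩ = algebraMap Ft Ft' (red a))
    (hred : IsRedAbs V red r) (hred' : IsRedAbs V' red' r')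
    {a : ↥V} (ha : IsUnit a) (D : Divisor K F) (hD : ∀ P, D P = P.ord (a : F)) :
    Finsupp.mapDomain r' (Divisor.pullback F' D)
      = Divisor.pullback Ft' (Finsupp.mapDomain r D) := by
  ext Q'
  have h1 := hred' _ (isUnit_incl V V' hmem ha) (Divisor.pullback F' D)
    (fun P => Divisor.pullback_apply_eq_ord hD P) Q'
  have h2 : ∀ Q : Place k Ft, Finsupp.mapDomain r D Q = Q.ord (red a) := hred a ha D hD
  rw [h1, hcompat, Divisor.pullback_apply_eq_ord h2 Q']

/-- **Reduction commutes with the pull-back of a place.** -/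
theorem mapDomain_pullback_single (hmem : ∀ a : F, a ∈ V → algebraMap F F' a ∈ V')
    (hcompat : ∀ (a : ↥V) (ha : algebraMap F F' (a : F) ∈ V'),
      red' ⟨algebraMap F F' (a : F), ha⟩ = algebraMap Ft Ft' (red a))
    (hred : IsRedAbs V red r) (hred' : IsRedAbs V' red' r') (hmove : HasMoveAbs V r)
    (hr : ∀ P' : Place K F', r (P'.restrict F) = (r' P').restrict Ft) (P : Place K F) :
    Finsupp.mapDomain r' (Divisor.pullback F' (Finsupp.single P 1))
      = Divisor.pullback Ft' (Finsupp.single (r P) 1) := by
  classical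
  obtain ⟨n, f, hn, hu, hord, hother⟩ := hmove P ∅
  have hf0 : (f : F) ≠ 0 := by
    intro h0
    have : f = 0 := Subtype.ext h0
    rw [this] at hu
    exact not_isUnit_zero hu
  obtain ⟨D, hD, -⟩ := HasPrincipalDivisors.exists_divisor (K := K) (f : F) hf0
  -- the divisor of zeros
  obtain ⟨Z, hZ⟩ : ∃ Z : Divisor K F, Z = D + Finsupp.single P (n : ℤ) := ⟨_, rfl⟩
  have hZP : Z P = 0 := by
    rw [hZ, Finsupp.add_apply, hD, hord, Finsupp.single_eq_same]
    ring
  have hZsupp : ∀ P'' ∈ Z.support, r P'' ≠ r P := by
    intro P'' hP''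
    have hne : P'' ≠ P := by
      rintro rfl
      exact (Finsupp.mem_support_iff.mp hP'') hZP
    have hval : Z P'' = P''.ord (f : F) := by
      rw [hZ, Finsupp.add_apply, hD, Finsupp.single_eq_of_ne hne, add_zero]
    have hpos : 0 < P''.ord (f : F) := by
      have h0 := (hother P'' hne).1
      have h1 : P''.ord (f : F) ≠ 0 := by
        rw [← hval]
        exact Finsupp.mem_support_iff.mp hP''
      exact lt_of_le_of_ne h0 (Ne.symm h1)
    exact ((hother P'' hne).2 hpos).2
  have hDZ : D = Z + (-(n : ℤ)) • Finsupp.single P 1 := by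
    rw [hZ, Finsupp.smul_single, smul_eq_mul, mul_one, add_assoc, ← Finsupp.single_add,
      add_neg_cancel, Finsupp.single_zero, add_zero]
  have key := mapDomain_pullback_unit hmem hcompat hred hred' hu D hD
  rw [hDZ, map_add, map_zsmul, Finsupp.mapDomain_add, Finsupp.mapDomain_smul,
    Finsupp.mapDomain_add, Finsupp.mapDomain_smul, Finsupp.mapDomain_single, map_add,
    map_zsmul] at key
  ext Q'
  by_cases hQ : Q'.restrict Ft = r P
  · -- the zeros do not contribute over `r P`
    have hA : Finsupp.mapDomain r' (Divisor.pullback F' Z) Q' = 0 := by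
      refine mapDomain_apply_eq_zero _ _ _ fun P' hP' hP'Q => ?_
      have h1 := hZsupp _ (Divisor.restrict_mem_support_of_mem_support_pullback hP')
      rw [hr P', hP'Q, hQ] at h1
      exact h1 rfl
    have hB : Divisor.pullback Ft' (Finsupp.mapDomain r Z) Q' = 0 := by
      rw [Divisor.pullback_apply, hQ, mapDomain_apply_eq_zero r Z (r P) hZsupp, mul_zero]
    have key' := congrArg (fun E : Divisor k Ft' => E Q') key
    simp only [Finsupp.add_apply, Finsupp.smul_apply, smul_eq_mul] at key'
    rw [hA, hB, zero_add, zero_add] at key'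
    have hn0 : (-(n : ℤ)) ≠ 0 := by
      have : (0 : ℤ) < n := by exact_mod_cast hn
      omega
    exact mul_left_cancel₀ hn0 key'
  · -- both sides vanish away from `r P`
    rw [Divisor.pullback_single_apply_of_restrict_ne hQ]
    refine mapDomain_apply_eq_zero _ _ _ fun P' hP' hP'Q => ?_
    have h1 := Divisor.restrict_mem_support_of_mem_support_pullback hP'
    rw [Finsupp.mem_support_iff] at h1
    have h2 : P'.restrict F = P := by
      by_contra hne
      exact h1 (Finsupp.single_eq_of_ne hne)
    apply hQ
    rw [← hP'Q, ← hr P', h2]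

/-- **PULL-COMPAT**: reduction commutes with the pull-back of divisors. -/
theorem mapDomain_pullback (hmem : ∀ a : F, a ∈ V → algebraMap F F' a ∈ V')
    (hcompat : ∀ (a : ↥V) (ha : algebraMap F F' (a : F) ∈ V'),
      red' ⟨algebraMap F F' (a : F), ha⟩ = algebraMap Ft Ft' (red a))
    (hred : IsRedAbs V red r) (hred' : IsRedAbs V' red' r') (hmove : HasMoveAbs V r)
    (hr : ∀ P' : Place K F', r (P'.restrict F) = (r' P').restrict Ft) (D : Divisor K F) :
    Finsupp.mapDomain r' (Divisor.pullback F' D)
      = Divisor.pullback Ft' (Finsupp.mapDomain r D) := by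
  induction D using Finsupp.induction with
  | zero => simp
  | single_add P m D _ _ ih =>
    have hs : (Finsupp.single P m : Divisor K F) = m • Finsupp.single P 1 := by
      rw [Finsupp.smul_single, smul_eq_mul, mul_one]
    rw [map_add, Finsupp.mapDomain_add, Finsupp.mapDomain_add, map_add, ih, hs, map_zsmul,
      Finsupp.mapDomain_smul, Finsupp.mapDomain_smul, Finsupp.mapDomain_single, map_zsmul,
      mapDomain_pullback_single hmem hcompat hred hred' hmove hr P]

/-- **PUSH-COMPAT**: reduction commutes with the push-forward of divisors (all places of degree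
one). -/
theorem mapDomain_pushforward (hdeg : ∀ v : Place K F, v.deg = 1)
    (hdeg' : ∀ w : Place K F', w.deg = 1) (hdegt : ∀ v : Place k Ft, v.deg = 1)
    (hdegt' : ∀ w : Place k Ft', w.deg = 1)
    (hr : ∀ P' : Place K F', r (P'.restrict F) = (r' P').restrict Ft) (D' : Divisor K F') :
    Finsupp.mapDomain r (Divisor.pushforward F D')
      = Divisor.pushforward Ft (Finsupp.mapDomain r' D') := by
  induction D' using Finsupp.induction with
  | zero => simp
  | single_add P' m D' _ _ ih =>
    rw [map_add, Finsupp.mapDomain_add, Finsupp.mapDomain_add, map_add, ih,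
      Divisor.pushforward_single, Finsupp.mapDomain_single, Finsupp.mapDomain_single,
      Divisor.pushforward_single, hr P']
    congr 2
    have e1 : P'.inertiaDeg F = 1 := by
      have h := P'.deg_restrict_mul_inertiaDeg (F := F)
      rw [hdeg, hdeg', one_mul] at h
      exact h
    have e2 : (r' P').inertiaDeg Ft = 1 := by
      have h := (r' P').deg_restrict_mul_inertiaDeg (F := Ft)
      rw [hdegt, hdegt', one_mul] at h
      exact h
    rw [e1, e2]

end Abs

end Fermat.Agent.RED.H63
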