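import Fermat.Prelude.Def_AlgebraicCurve_Correspondence

/-!
# G-RED package HR-RED (helper67): generic lemmas on correspondences

`C = ψ_* φ^*` the correspondence of two finite maps `φ, ψ : F → F'` of function fields over `K`
(prelude `Divisor.correspondence φ ψ hφ hψ`).

* `corr_single` : `C z = ∑_{W | z} e(W) f(W) · (W restricted along ψ)`;
* `corr_single_nonneg` : `C z ≥ 0`;
* `corr_single_ne_zero` : a point of the support of `C z` is the restriction along `ψ` of a place
  over `z`;
* `corr_loc` : for every `z` there is a finite set `S` such that the supports of `C z` and `C z'`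
  are disjoint for `z' ∉ S`;
* `comp_mapDomain_loc` : the hypothesis `hloc` of `H52.eq_of_pos_of_move` for `Ψ = C ∘ r_*`.
-/

set_option autoImplicit false

noncomputable section

open AlgebraicCurve

attribute [local instance] Classical.propDecidable

namespace Fermat.Agent.RED.H67C

variable {K F F' : Type*} [Field K] [Field F] [Field F'] [Algebra K F] [Algebra K F']
  [HasPrincipalDivisors K F'] (φ ψ : F →ₐ[K] F') (hφ : φ.toRingHom.IsIntegral)
  (hψ : ψ.toRingHom.IsIntegral)

/-- The correspondence on a point. -/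
theorem corr_single (z : Place K F) (n : ℤ) :
    Divisor.correspondence φ ψ hφ hψ (Finsupp.single z n)
      = ∑ W ∈ Place.fiberAlong φ hφ z,
          Finsupp.single (W.restrictAlong ψ hψ)
            (n * W.ramificationIndexAlong φ * W.inertiaDegAlong ψ hψ) := by
  rw [Divisor.correspondence_apply, Divisor.pullbackAlong_single, map_sum]
  refine Finset.sum_congr rfl fun W _ => ?_
  rw [Divisor.pushforwardAlong_single]

/-- `C z ≥ 0`. -/
theorem corr_single_nonneg (z q : Place K F) :
    0 ≤ Divisor.correspondence φ ψ hφ hψ (Finsupp.single z 1) q := by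
  rw [corr_single, Finsupp.finsetSum_apply]
  refine Finset.sum_nonneg fun W _ => ?_
  rw [Finsupp.single_apply]
  split_ifs
  · positivity
  · exact le_rfl

/-- A point of the support of `C z` is the restriction along `ψ` of a place over `z`. -/
theorem corr_single_ne_zero {z q : Place K F} {n : ℤ}
    (h : Divisor.correspondence φ ψ hφ hψ (Finsupp.single z n) q ≠ 0) :
    ∃ W : Place K F', W.restrictAlong φ hφ = z ∧ W.restrictAlong ψ hψ = q := by
  rw [corr_single, Finsupp.finsetSum_apply] at h
  obtain ⟨W, hW, hne⟩ := Finset.exists_ne_zero_of_sum_ne_zero h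
  refine ⟨W, Place.mem_fiberAlong.mp hW, ?_⟩
  by_contra hq
  exact hne (Finsupp.single_eq_of_ne' hq)

/-- **Locality** of a correspondence: for every `z` there is a finite set `S` of points such
that the supports of `C z` and `C z'` are disjoint for `z' ∉ S`. -/
theorem corr_loc (z : Place K F) :
    ∃ S : Finset (Place K F), ∀ z' : Place K F, z' ∉ S → ∀ q : Place K F,
      Divisor.correspondence φ ψ hφ hψ (Finsupp.single z 1) q ≠ 0 →
        Divisor.correspondence φ ψ hφ hψ (Finsupp.single z' 1) q = 0 := by
  refine ⟨(Place.fiberAlong φ hφ z).biUnion fun W =>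
    (Place.fiberAlong ψ hψ (W.restrictAlong ψ hψ)).image fun W' => W'.restrictAlong φ hφ, ?_⟩
  intro z' hz' q hq
  by_contra hq'
  obtain ⟨W, hWz, hWq⟩ := corr_single_ne_zero φ ψ hφ hψ hq
  obtain ⟨W', hWz', hWq'⟩ := corr_single_ne_zero φ ψ hφ hψ hq'
  apply hz'
  rw [Finset.mem_biUnion]
  refine ⟨W, Place.mem_fiberAlong.mpr hWz, ?_⟩
  rw [Finset.mem_image]
  refine ⟨W', Place.mem_fiberAlong.mpr ?_, hWz'⟩
  rw [hWq', hWq]

/-- The hypothesis `hloc` of `H52.eq_of_pos_of_move` for `Ψ = C ∘ r_*`. -/
theorem comp_mapDomain_loc {P : Type*} (r : P → Place K F) (p : P) :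
    ∃ S : Finset (Place K F), ∀ p' : P, r p' ∉ S → r p' ≠ r p → ∀ q : Place K F,
      ((Divisor.correspondence φ ψ hφ hψ).comp (Finsupp.mapDomain.addMonoidHom r))
          (Finsupp.single p 1) q ≠ 0 →
        ((Divisor.correspondence φ ψ hφ hψ).comp (Finsupp.mapDomain.addMonoidHom r))
          (Finsupp.single p' 1) q = 0 := by
  obtain ⟨S, hS⟩ := corr_loc φ ψ hφ hψ (r p)
  refine ⟨S, fun p' hp' _ q hq => ?_⟩
  have e : ∀ x : P, ((Divisor.correspondence φ ψ hφ hψ).comp (Finsupp.mapDomain.addMonoidHom r))
      (Finsupp.single x 1) = Divisor.correspondence φ ψ hφ hψ (Finsupp.single (r x) 1) := by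
    intro x
    rw [AddMonoidHom.comp_apply, Finsupp.mapDomain.addMonoidHom_apply,
      Finsupp.mapDomain_single]
  rw [e] at hq ⊢
  exact hS (r p') hp' q hq

end Fermat.Agent.RED.H67C
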