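import Fermat.Agent.S43.Old.H35_HRDiv
import Fermat.Agent.RED.HR.H11_HRell

/-!
# G-RED package HR-RED: `Stmt_HRcore`, unconditional (helper67, wiring)

`stmt_HRcore : RED.H51.Stmt_HRcore` : the kernel of the reduction map on divisors is stable under
the Hecke correspondences `T_s`, `s` any prime.

* `s = ℓ` : helper11's `RED.H11.hrcore_ell` (Eichler-Shimura on divisors);
* `s ≠ ℓ` : helper35's `S43.Old.H35.hr_div` (`r_* T_s = T~_s r_*` on divisors, from helper78's
  abstract theorem `RED.H78.hr_abs`, helper69's / helper51's degree of `β`, helper10's NORM-RED)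
  and the fact that a correspondence of function fields preserves principal divisors
  (`Divisor.correspondence_mem_principal`, with the function field inputs `H35.towerInputs` of the
  reduced tower).

This file contains no `sorry`.
-/

set_option autoImplicit false
set_option linter.style.haveILetI false
set_option synthInstance.maxHeartbeats 400000
set_option maxHeartbeats 1000000

noncomputable section

open AlgebraicCurve ModularCurve Fermat.Agent.S28.H73 Fermat.Agent.RED Fermat.Agent.RED.H73

namespace Fermat.Agent.RED.H67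

/-- **HR core**, unconditional. -/
theorem stmt_HRcore : Fermat.Agent.RED.H51.Stmt_HRcore := by
  intro N ℓ s _ _ hℓ hs hℓN A hA hα hβ _ r hr hm D hD
  by_cases hsℓ : s = ℓ
  · subst hsℓ
    exact Fermat.Agent.RED.H11.hrcore_ell N s hℓ hℓN A hA hα hβ r hr hm D hD
  · have hℓNs : ¬ ℓ ∣ N * s := by
      intro h
      rcases (Nat.Prime.dvd_mul hℓ).1 h with h1 | h1
      · exact hℓN h1
      · exact hsℓ ((Nat.prime_dvd_prime_iff_eq hℓ hs).1 h1).symm
    have TI := Fermat.Agent.S43.Old.H35.towerInputs (A := A) (M := N) (ℓ := s) hℓ hA hℓNs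
    haveI := TI.hP
    have key := Fermat.Agent.S43.Old.H35.hr_div A ℓ N s hℓ hs hsℓ hℓN hA hα hβ TI.hα TI.hβ
      r hr hm D
    have hD' : Finsupp.mapDomain r D ∈ Divisor.principal (K := kV A)
        (F := ↥(Fermat.Agent.S43.Old.H35.Ft A N)) := hD
    have hpr := Divisor.correspondence_mem_principal (Fermat.Agent.S43.Old.H35.betaT A N s)
      (Fermat.Agent.S43.Old.H35.alphaT A N s) TI.hβ TI.hα TI.hfin TI.hNF hD'
    rw [← key] at hpr
    exact hpr

end Fermat.Agent.RED.H67
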