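import Fermat.Prelude.Def_AlgebraicCurve_Correspondence
import Fermat.Agent.RED.H52_ES3bAbs
import Fermat.Agent.RED.H52_ES3Psi

/-!
# G-RED package HR-RED, MAIN (helper78): abstract lemmas on correspondences

`K` a field, `F, F'` fields over `K`, `φ ψ : F →ₐ[K] F'` integral, `T = ψ_* φ^*` the
correspondence of the prelude (`Divisor.correspondence φ ψ`).

* `corr_single` : `T P = Σ_{W | φ ↦ P} e(W | φ) f(W | ψ) · (W | ψ)`.
* `corr_single_nonneg` : `T P ≥ 0`.
* `corr_single_ne_zero` : `q ∈ supp (T P)` ⇒ there is `W` over `P` (along `φ`) and over `q`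
  (along `ψ`).
* `corr_loc` : **locality**: for every place `Q` there is a finite set `S` such that
  `supp (T Q') ∩ supp (T Q) = ∅` for `Q' ∉ S`.
* `corr_ord` : `T (div f) = div (N_ψ (φ f))` (norm formula along `ψ`).
* `corr_mass_single` : `mass (T P) = [F' : φ F]` if all places have degree one
  (fundamental identity along `φ`).
This file contains no `sorry`.
-/

set_option autoImplicit false
set_option linter.style.haveILetI false

noncomputable section

open AlgebraicCurve

namespace Fermat.Agent.RED.H78

section Corr

variable {K F F' : Type*} [Field K] [Field F] [Field F'] [Algebra K F] [Algebra K F']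
variable [HasPrincipalDivisors K F']
variable (φ ψ : F →ₐ[K] F') (hφ : φ.toRingHom.IsIntegral) (hψ : ψ.toRingHom.IsIntegral)

/-- The correspondence on a point. -/
theorem corr_single (P : Place K F) :
    Divisor.correspondence φ ψ hφ hψ (Finsupp.single P 1)
      = ∑ W ∈ Place.fiberAlong φ hφ P,
          Finsupp.single (W.restrictAlong ψ hψ)
            ((W.ramificationIndexAlong φ : ℤ) * (W.inertiaDegAlong ψ hψ : ℤ)) := by
  rw [Divisor.correspondence_apply, Divisor.pullbackAlong_single, map_sum]
  refine Finset.sum_congr rfl fun W _ => ?_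
  rw [Divisor.pushforwardAlong_single, one_mul]

/-- `T P ≥ 0`. -/
theorem corr_single_nonneg (P q : Place K F) :
    0 ≤ Divisor.correspondence φ ψ hφ hψ (Finsupp.single P 1) q := by
  classical
  rw [corr_single, Finsupp.finsetSum_apply]
  refine Finset.sum_nonneg fun W _ => ?_
  rw [Finsupp.single_apply]
  split_ifs
  · positivity
  · exact le_rfl

/-- A point of the support of `T P` is under a place over `P`. -/
theorem corr_single_ne_zero (P q : Place K F)
    (h : Divisor.correspondence φ ψ hφ hψ (Finsupp.single P 1) q ≠ 0) :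
    ∃ W : Place K F', W.restrictAlong φ hφ = P ∧ W.restrictAlong ψ hψ = q := by
  classical
  rw [corr_single, Finsupp.finsetSum_apply] at h
  obtain ⟨W, hW, hne⟩ := Finset.exists_ne_zero_of_sum_ne_zero h
  rw [Finsupp.single_apply] at hne
  split_ifs at hne with h1
  · exact ⟨W, Place.mem_fiberAlong.1 hW, h1⟩
  · exact absurd rfl hne

/-- **Locality** of a correspondence. -/
theorem corr_loc (Q : Place K F) :
    ∃ S : Finset (Place K F), ∀ Q' : Place K F, Q' ∉ S →
      ∀ q : Place K F, Divisor.correspondence φ ψ hφ hψ (Finsupp.single Q 1) q ≠ 0 →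
        Divisor.correspondence φ ψ hφ hψ (Finsupp.single Q' 1) q = 0 := by
  classical
  refine ⟨(Divisor.correspondence φ ψ hφ hψ (Finsupp.single Q 1)).support.biUnion
    (fun q => (Place.fiberAlong ψ hψ q).image (fun W => W.restrictAlong φ hφ)), ?_⟩
  intro Q' hQ' q hq
  by_contra hne
  obtain ⟨W, hW1, hW2⟩ := corr_single_ne_zero φ ψ hφ hψ Q' q hne
  apply hQ'
  rw [Finset.mem_biUnion]
  refine ⟨q, Finsupp.mem_support_iff.2 hq, ?_⟩
  rw [Finset.mem_image]
  exact ⟨W, Place.mem_fiberAlong.2 hW2, hW1⟩

/-- `T (div f) = div (N_ψ (φ f))`. -/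
theorem corr_ord (hfin : FiniteAlong K ψ) (hN : NormFormulaAlong K ψ hfin)
    (D : Divisor K F) {f : F} (hf : f ≠ 0) (hD : ∀ v : Place K F, D v = v.ord f)
    (v : Place K F) :
    Divisor.correspondence φ ψ hφ hψ D v
      = v.ord (letI := algebraAlong ψ; Algebra.norm F (φ f)) := by
  have h1 : ∀ w : Place K F', Divisor.pullbackAlong φ hφ D w = w.ord (φ f) := by
    intro w
    letI := algebraAlong φ
    haveI := isScalarTower_along φ
    haveI := isIntegral_along φ hφ
    exact Divisor.pullback_apply_eq_ord hD w
  have hφf : φ f ≠ 0 := fun h0 => hf (φ.toRingHom.injective (by simpa using h0))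
  letI := algebraAlong ψ
  haveI := isScalarTower_along ψ
  haveI := isIntegral_along ψ hψ
  haveI : Module.Finite F F' := hfin
  exact hN _ hφf _ h1 v

/-- If all places have degree one, the degree is the sum of the coefficients. -/
theorem degree_eq_massHom' {K F : Type*} [Field K] [Field F] [Algebra K F]
    (hdeg : ∀ v : Place K F, v.deg = 1) (D : Divisor K F) :
    Divisor.degree D = H52.massHom D := by
  induction D using Finsupp.induction_linear with
  | zero => simp
  | add f g hf hg => rw [map_add, map_add, hf, hg]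
  | single v n => rw [Divisor.degree_single, hdeg, H52.massHom_single]; simp

/-- `mass (T P) = [F' : φ F]`. -/
theorem corr_mass_single (hdeg : ∀ v : Place K F, v.deg = 1)
    (hFI : FundamentalIdentityAlong K φ hφ) (P : Place K F) :
    H52.massHom (Divisor.correspondence φ ψ hφ hψ (Finsupp.single P 1))
      = (finrankAlong K φ : ℤ) := by
  rw [← degree_eq_massHom' hdeg, Divisor.degree_correspondence _ _ hφ hψ hFI,
    Divisor.degree_single, hdeg]
  push_cast
  ring

end Corr

end Fermat.Agent.RED.H78
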