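import Fermat.Agent.RED.HR.H11_HRell
import Fermat.Agent.S43.Old.H35_HRDiv

/-!
# G-RED package HR-RED, MAIN (helper78): `Stmt_HRcore`, unconditional

`stmt_HRcore : RED.H51.Stmt_HRcore` : for a reduction map `r` of level `N` (prime to `ℓ`) with
the conservation law and the moving lemma and every prime `s`: if `r_* D` is principal then
`r_* (T_s D)` is principal.

* `s = ℓ` : `H11.hrcore_ell` (Eichler–Shimura on divisors, helper95/helper11);
* `s ≠ ℓ` : `r_* (T_s D) = T~_s (r_* D)` (`H35.hr_div` = the abstract theorem `H78.hr_abs` +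
  NORM-RED of helper10/helper35 + the degree of `β~` of helper51/helper69), and the correspondence
  `T~_s = α~_* β~^*` of the reduced fields preserves principal divisors (norm formula, FF-B).
This file contains no `sorry`.
-/

set_option autoImplicit false
set_option linter.style.haveILetI false
set_option synthInstance.maxHeartbeats 400000
set_option maxHeartbeats 1000000

noncomputable section

open AlgebraicCurve ModularCurve Fermat.Agent.S28.H73 Fermat.Agent.RED Fermat.Agent.RED.H73
open Fermat.Agent.S43.Old.H35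

namespace Fermat.Agent.RED.H78

/-- **HR core**, unconditional. -/
theorem stmt_HRcore : Fermat.Agent.RED.H51.Stmt_HRcore := by
  intro N ℓ s _ _ hℓ hs hℓN A hA hα hβ _ r hr hmove D hD
  by_cases hsℓ : s = ℓ
  · subst hsℓ
    exact H11.hrcore_ell N s hℓ hℓN A hA hα hβ r hr hmove D hD
  · have hℓs : ¬ ℓ ∣ s := fun h => hsℓ ((Nat.prime_dvd_prime_iff_eq hℓ hs).mp h).symm
    have hℓNs : ¬ ℓ ∣ N * s := fun h => (hℓ.dvd_mul.mp h).elim hℓN hℓs
    have TI := towerInputs (A := A) (M := N) (ℓ := s) hℓ hA hℓNs
    haveI := TI.hP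
    rw [hr_div A ℓ N s hℓ hs hsℓ hℓN hA hα hβ TI.hα TI.hβ r hr hmove D]
    exact Divisor.correspondence_mem_principal (betaT A N s) (alphaT A N s) TI.hβ TI.hα
      TI.hfin TI.hNF hD

end Fermat.Agent.RED.H78
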