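import Fermat.Agent.RED.HR.H51_FinrankAlong
import Fermat.Agent.RED.H73_GAModular
import Fermat.Prelude.Def_ModularCurve_HeckeOperator
import Fermat.Prelude.Def_ModularCurve_ArithmeticGalois

/-!
# G-RED package HR-RED, leaf DEG-ℚ̄ (helper83, for helper78's `hrcore_of`)

The degrees of the two degeneracy maps `α, β : F_N → F_{Ns}` over `ℚ̄`, as relative degrees of
intermediate fields of `ℚ̄((q))`:

* `finrankAlong_beta_eq` (D1) : `[F_{Ns} : β F_N] = [fullC (N s) : (fullC N).map (q ↦ q^s)]`;
* `finrankAlong_alpha_eq` (D2) : `[F_{Ns} : α F_N] = [F_{Ns} : F_N]` (relative degree of the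
  prelude fields `modularFunctionFieldBar`).

This file contains no `sorry`.
-/

set_option autoImplicit false
set_option linter.style.haveILetI false

noncomputable section

open AlgebraicCurve ModularCurve IntermediateField

namespace Fermat.Agent.RED.H83

/-- **(D1)** the degree of `β` over `ℚ̄`. -/
theorem finrankAlong_beta_eq (N s : ℕ) [NeZero N] [NeZero s] :
    AlgebraicCurve.finrankAlong (AlgebraicClosure ℚ)
        (heckeBetaBar (AlgebraicClosure ℚ) N s)
      = ((modularFunctionFieldFullC (AlgebraicClosure ℚ) N).map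
            (qExpandAlgHomC (AlgebraicClosure ℚ) s)).relfinrank
          (modularFunctionFieldFullC (AlgebraicClosure ℚ) (N * s)) := by
  have h := Fermat.Agent.RED.H51.finrankAlong_eq_relfinrank_map
    (laurentBaseChange (AlgebraicClosure ℚ) (modularFunctionFieldFull N))
    (laurentBaseChange (AlgebraicClosure ℚ) (modularFunctionFieldFull (N * s)))
    (qExpandAlgHomC (AlgebraicClosure ℚ) s) (heckeBetaBar (AlgebraicClosure ℚ) N s)
    (fun x => by
      rw [qExpandAlgHomC_apply]
      exact coe_heckeBetaBarRingHom (L := AlgebraicClosure ℚ) (N := N) (ℓ := s) x)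
  rw [h, Fermat.Agent.RED.H73.laurentBaseChange_full_eq,
    Fermat.Agent.RED.H73.laurentBaseChange_full_eq]

/-- **(D2)** the degree of `α` over `ℚ̄`. -/
theorem finrankAlong_alpha_eq (N s : ℕ) [NeZero N] [NeZero s] :
    AlgebraicCurve.finrankAlong (AlgebraicClosure ℚ)
        (heckeAlphaBar (AlgebraicClosure ℚ) N s)
      = (modularFunctionFieldBar N).relfinrank (modularFunctionFieldBar (N * s)) := by
  have h := Fermat.Agent.RED.H51.finrankAlong_eq_relfinrank_map
    (laurentBaseChange (AlgebraicClosure ℚ) (modularFunctionFieldFull N))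
    (laurentBaseChange (AlgebraicClosure ℚ) (modularFunctionFieldFull (N * s)))
    (AlgHom.id (AlgebraicClosure ℚ) (LaurentSeries (AlgebraicClosure ℚ)))
    (heckeAlphaBar (AlgebraicClosure ℚ) N s)
    (fun x => by
      rw [AlgHom.id_apply]
      exact coe_heckeAlphaBar (L := AlgebraicClosure ℚ) (N := N) (ℓ := s) x)
  rw [h, IntermediateField.map_id]

end Fermat.Agent.RED.H83
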