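import Fermat.Agent.RED.ES.H95_NormAlpha

/-!
# G-RED package HR-RED (helper95): the swapped identity over `ℚ̄`

`ℓ` prime, `ℓ ∤ N`, `α, β : F_N → F_{Nℓ}` the degeneracy maps (`α` = inclusion, `β f = f(q^ℓ)`).
Every polynomial relation `P(α x, β y) = 0` gives `P(β x, α y) = 0`
(the Atkin–Lehner involution `w_ℓ` swaps `α` and `β`): `ρ' ∘ α = ρ ∘ β`, `ρ' ∘ β = ρ ∘ α` for the
two embeddings `ρ = rho`, `ρ' = rhoW` of `F_{Nℓ}` of `H95_Rho`, `H95_NormAlpha`.

* `swap_alpha_beta` : `eval₂ α (β y) P = 0 → eval₂ β (α y) P = 0`, `P ∈ F_N[X]`, `y ∈ F_N`.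
-/

set_option autoImplicit false

noncomputable section

namespace Fermat.Agent.RED.H95

open Fermat.Agent.S24 ModularCurve Matrix ModularGroup CongruenceSubgroup UpperHalfPlane
open scoped MatrixGroups

variable {N : ℕ} [NeZero N] {ℓ : ℕ} [NeZero ℓ]

/-- **The swapped identity**, subtype form. -/
theorem swap_alpha_beta (hℓ : ℓ.Prime) (hN : ¬ ℓ ∣ N) (P : Polynomial (FN N)) (y : FN N)
    (h : Polynomial.eval₂ (heckeAlphaBar Kbar N ℓ).toRingHom (heckeBetaBar Kbar N ℓ y) P = 0) :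
    Polynomial.eval₂ (heckeBetaBar Kbar N ℓ).toRingHom (heckeAlphaBar Kbar N ℓ y) P = 0 := by
  obtain ⟨u, v, huv⟩ := exists_bezout hℓ hN
  have h1 := congrArg (rhoW u v huv).toRingHom h
  rw [map_zero, Polynomial.hom_eval₂] at h1
  have e1 : (rhoW u v huv).toRingHom.comp (heckeAlphaBar Kbar N ℓ).toRingHom
      = (rho N hℓ).toRingHom.comp (heckeBetaBar Kbar N ℓ).toRingHom := by
    refine RingHom.ext fun g => ?_
    show rhoW u v huv (heckeAlphaBar Kbar N ℓ g) = rho N hℓ (heckeBetaBar Kbar N ℓ g)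
    rw [rhoW_alpha, rho_beta]
  have e2 : (rhoW u v huv).toRingHom (heckeBetaBar Kbar N ℓ y)
      = (rho N hℓ).toRingHom (heckeAlphaBar Kbar N ℓ y) := rhoW_beta hℓ u v huv y
  rw [e1, e2, ← Polynomial.hom_eval₂] at h1
  exact (map_eq_zero (rho N hℓ).toRingHom).1 h1

end Fermat.Agent.RED.H95
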